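import Mathlib

set_option autoImplicit false
set_option linter.unusedSectionVars false

namespace Fermat.Agent.Iso

open WeierstrassCurve WeierstrassCurve.Affine

variable {F : Type*} [Field F] [DecidableEq F] {W : WeierstrassCurve.Affine F}

/-- the `x`-coordinate with junk value `0` at infinity -/
def xc : W.Point → F
  | .zero => 0
  | .some x _ _ => x

@[simp] lemma xc_some {x y : F} (h : W.Nonsingular x y) : xc (Point.some x y h) = x := rfl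

@[simp] lemma xc_neg (P : W.Point) : xc (-P) = xc P := by
  rcases P with _ | ⟨x, y, h⟩
  · rfl
  · rfl

lemma xc_eq_iff {P Q : W.Point} (hP : P ≠ 0) (hQ : Q ≠ 0) : xc P = xc Q ↔ P = Q ∨ P = -Q := by
  rcases P with _ | ⟨x1, y1, h1⟩
  · exact absurd rfl hP
  rcases Q with _ | ⟨x2, y2, h2⟩
  · exact absurd rfl hQ
  exact Point.X_eq_iff

/-- the quantity `B = ψ₂²(x)` -/
def cB (W : WeierstrassCurve.Affine F) (x : F) : F := 4 * x ^ 3 + W.b₂ * x ^ 2 + 2 * W.b₄ * x + W.b₆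
/-- the quantity `C = ψ₃(x)` -/
def cC (W : WeierstrassCurve.Affine F) (x : F) : F :=
  3 * x ^ 4 + W.b₂ * x ^ 3 + 3 * W.b₄ * x ^ 2 + 3 * W.b₆ * x + W.b₈
/-- shifted `b₄` -/
def cq (W : WeierstrassCurve.Affine F) (x : F) : F := W.b₄ + x * W.b₂ + 6 * x ^ 2
/-- shifted `b₂` -/
def cp (W : WeierstrassCurve.Affine F) (x : F) : F := W.b₂ + 12 * x

lemma four_cC (x : F) : 4 * cC W x = cp W x * cB W x - cq W x ^ 2 := by
  have h := W.b_relation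
  simp only [cC, cp, cB, cq]
  linear_combination h

lemma Δ_shift (x : F) : W.Δ = -(cp W x) ^ 2 * cC W x - 8 * cq W x ^ 3 - 27 * cB W x ^ 2 +
    9 * cp W x * cq W x * cB W x := by
  simp only [cC, cp, cB, cq, WeierstrassCurve.Δ, WeierstrassCurve.b₂, WeierstrassCurve.b₄,
    WeierstrassCurve.b₆, WeierstrassCurve.b₈]
  ring

lemma c₆_shift (x : F) : W.c₆ = -(cp W x) ^ 3 + 36 * cp W x * cq W x - 216 * cB W x := by
  simp only [cp, cB, cq, WeierstrassCurve.c₆]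
  ring

lemma add_sub_rel {P Q : W.Point} (hP : P ≠ 0) (hQ : Q ≠ 0) (h : xc Q ≠ xc P) :
    (xc (Q + P) - xc P) * (xc (Q - P) - xc P) * (xc Q - xc P) ^ 2 =
        -(cB W (xc P) * (xc Q - xc P) + cC W (xc P)) ∧
      ((xc (Q + P) - xc P) + (xc (Q - P) - xc P)) * (xc Q - xc P) ^ 2 =
        cq W (xc P) * (xc Q - xc P) + cB W (xc P) := by
  rcases P with _ | ⟨x1, y1, h1⟩
  · exact absurd rfl hP
  rcases Q with _ | ⟨x2, y2, h2⟩
  · exact absurd rfl hQ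
  simp only [xc_some] at h
  have hd : x2 - x1 ≠ 0 := sub_ne_zero.mpr h
  have E1 := (W.equation_iff x1 y1).mp h1.1
  have E2 := (W.equation_iff x2 y2).mp h2.1
  have hsub : Point.some x2 y2 h2 - Point.some x1 y1 h1 =
      Point.some x2 y2 h2 + - Point.some x1 y1 h1 := sub_eq_add_neg _ _
  rw [hsub, Point.neg_some, Point.add_of_X_ne h, Point.add_of_X_ne h]
  simp only [xc_some, addX, slope_of_X_ne h, negY]
  have e1 : (((y2 - y1) / (x2 - x1)) ^ 2 + W.a₁ * ((y2 - y1) / (x2 - x1)) - W.a₂ - x2 - x1 - x1) =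
      ((y2 - y1) ^ 2 + W.a₁ * (y2 - y1) * (x2 - x1) - (W.a₂ + 2 * x1 + x2) * (x2 - x1) ^ 2) /
        (x2 - x1) ^ 2 := by
    field_simp; ring
  have e2 : (((y2 - (-y1 - W.a₁ * x1 - W.a₃)) / (x2 - x1)) ^ 2 +
      W.a₁ * ((y2 - (-y1 - W.a₁ * x1 - W.a₃)) / (x2 - x1)) - W.a₂ - x2 - x1 - x1) =
      ((y2 + y1 + W.a₁ * x1 + W.a₃) ^ 2 + W.a₁ * (y2 + y1 + W.a₁ * x1 + W.a₃) * (x2 - x1) -
        (W.a₂ + 2 * x1 + x2) * (x2 - x1) ^ 2) / (x2 - x1) ^ 2 := by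
    field_simp; ring
  rw [e1, e2]
  constructor
  · rw [div_mul_div_comm, div_mul_eq_mul_div, div_eq_iff (by positivity)]
    simp only [cB, cC, WeierstrassCurve.b₂, WeierstrassCurve.b₄,
      WeierstrassCurve.b₆, WeierstrassCurve.b₈]
    linear_combination ((x2 - x1) ^ 2) * (((y2 - y1) * (y2 + y1 + W.a₁ * x1 + W.a₃) + (x2 - x1) *
      (x1 ^ 2 + x1 * x2 + x2 ^ 2 + W.a₂ * (x1 + x2) + W.a₄ - W.a₁ * y2) +
      W.a₁ * (x2 - x1) * (2 * y2 + W.a₁ * x1 + W.a₃) + W.a₁ ^ 2 * (x2 - x1) ^ 2 +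
      2 * (W.a₂ + 2 * x1 + x2) * (x2 - x1) ^ 2) * (E2 - E1) -
      (x2 - x1) ^ 2 * (W.a₁ ^ 2 + 4 * W.a₂ + 8 * x1 + 4 * x2) * E2)
  · rw [← add_div, div_mul_cancel₀ _ (pow_ne_zero 2 hd)]
    simp only [cB, cq, WeierstrassCurve.b₂, WeierstrassCurve.b₄,
      WeierstrassCurve.b₆, WeierstrassCurve.b₈]
    linear_combination 2 * E1 + 2 * E2

lemma slope_aux {N ψ a b x : F} (hψ : ψ ≠ 0) :
    (N / ψ) ^ 2 + a * (N / ψ) - b - x - x - x = (N ^ 2 + a * N * ψ - (b + 3 * x) * ψ ^ 2) / ψ ^ 2 := by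
  field_simp; ring

lemma slope_aux' {N ψ a b x z : F} (hψ : ψ ≠ 0) :
    (N / ψ) ^ 2 + a * (N / ψ) - b - z - x - x = (N ^ 2 + a * N * ψ - (b + 2 * x + z) * ψ ^ 2) / ψ ^ 2 := by
  field_simp; ring

lemma double_rel {P : W.Point} (hP : P ≠ 0) (h : P + P ≠ 0) :
    cB W (xc P) ≠ 0 ∧ (xc (P + P) - xc P) * cB W (xc P) = - cC W (xc P) := by
  rcases P with _ | ⟨x1, y1, h1⟩
  · exact absurd rfl hP
  have E1 := (W.equation_iff x1 y1).mp h1.1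
  have hy : y1 ≠ W.negY x1 y1 := by
    intro hy
    exact h (Point.add_self_of_Y_eq hy)
  have hψ : 2 * y1 + W.a₁ * x1 + W.a₃ ≠ 0 := by
    intro h0
    apply hy
    simp only [negY]
    linear_combination h0
  have hB : cB W x1 = (2 * y1 + W.a₁ * x1 + W.a₃) ^ 2 := by
    simp only [cB, WeierstrassCurve.b₂, WeierstrassCurve.b₄, WeierstrassCurve.b₆]
    linear_combination - 4 * E1
  rw [Point.add_self_of_Y_ne hy]
  simp only [xc_some, addX, slope_of_Y_ne rfl hy, negY]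
  have hψ' : y1 - (-y1 - W.a₁ * x1 - W.a₃) ≠ 0 := by
    intro h0; apply hψ; linear_combination h0
  refine ⟨by rw [hB]; exact pow_ne_zero 2 hψ, ?_⟩
  rw [hB]
  have e1 : ((3 * x1 ^ 2 + 2 * W.a₂ * x1 + W.a₄ - W.a₁ * y1) / (y1 - (-y1 - W.a₁ * x1 - W.a₃))) ^ 2 +
      W.a₁ * ((3 * x1 ^ 2 + 2 * W.a₂ * x1 + W.a₄ - W.a₁ * y1) / (y1 - (-y1 - W.a₁ * x1 - W.a₃))) -
      W.a₂ - x1 - x1 - x1 = ((3 * x1 ^ 2 + 2 * W.a₂ * x1 + W.a₄ - W.a₁ * y1) ^ 2 +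
        W.a₁ * (3 * x1 ^ 2 + 2 * W.a₂ * x1 + W.a₄ - W.a₁ * y1) * (2 * y1 + W.a₁ * x1 + W.a₃) -
        (W.a₂ + 3 * x1) * (2 * y1 + W.a₁ * x1 + W.a₃) ^ 2) / (2 * y1 + W.a₁ * x1 + W.a₃) ^ 2 := by
    have : y1 - (-y1 - W.a₁ * x1 - W.a₃) = 2 * y1 + W.a₁ * x1 + W.a₃ := by ring
    rw [this]
    exact slope_aux hψ
  rw [e1, div_mul_cancel₀ _ (pow_ne_zero 2 hψ)]
  simp only [cC, WeierstrassCurve.b₂, WeierstrassCurve.b₄,
      WeierstrassCurve.b₆, WeierstrassCurve.b₈]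
  linear_combination -(W.a₁ ^ 2 + 4 * W.a₂ + 12 * x1) * E1

end Fermat.Agent.Iso
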