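import Mathlib
import Fermat.Agent.Iso.XCoord

set_option autoImplicit false

namespace Fermat.Agent.Iso

set_option maxHeartbeats 4000000 in
lemma poly13a {R : Type*} [CommRing R] {x y : R} (h : y^2+(x^3+x^2+1)*y-x^2-x = 0) :
    (-(((y+1+(y+1-x*y)*x*y)^2+4*(1-x*y)*(y+1-x*y)*x*y*(y+1))^3)
      +36*((y+1+(y+1-x*y)*x*y)^2+4*(1-x*y)*(y+1-x*y)*x*y*(y+1))*((y+1+(y+1-x*y)*x*y)*(1-x*y)*(y+1-x*y)*x*y)*(y+1)^2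
      -216*((1-x*y)^2*(y+1-x*y)^2*x^2*y^2)*(y+1)^4)*(x^2+x)^7 =
    (-(1-x*y)*(y+1-x*y)^2*x^2*y^5*(x+y+1))*(y+1)^3*(2*y+x^3+x^2+1)*
    ((-(x^3+4*x^2+x-1))^6+10*(-(x^3+4*x^2+x-1))^5*(x^2+x)+46*(-(x^3+4*x^2+x-1))^4*(x^2+x)^2
      +108*(-(x^3+4*x^2+x-1))^3*(x^2+x)^3+122*(-(x^3+4*x^2+x-1))^2*(x^2+x)^4
      +38*(-(x^3+4*x^2+x-1))*(x^2+x)^5-(x^2+x)^6) := by
  linear_combination ((1*x^12 + 6*x^11 + 15*x^10 + 20*x^9 + 15*x^8 + 6*x^7 + 1*x^6) +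
    ((-17)*x^13 + (-96)*x^12 + (-219)*x^11 + (-249)*x^10 + (-130)*x^9 + (-2)*x^8 + 29*x^7 + 11*x^6 + 1*x^5)*y +
    (100*x^14 + 498*x^13 + 903*x^12 + 544*x^11 + (-388)*x^10 + (-755)*x^9 + (-376)*x^8 + (-18)*x^7 + 40*x^6 + 11*x^5 + 1*x^4)*y^2 +
    ((-254)*x^15 + (-942)*x^14 + (-573)*x^13 + 2224*x^12 + 4433*x^11 + 2707*x^10 + (-377)*x^9 + (-1190)*x^8 + (-459)*x^7 + 2*x^6 + 41*x^5 + 11*x^4 + 1*x^3)*y^3 +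
    (316*x^16 + 528*x^15 + (-2058)*x^14 + (-6250)*x^13 + (-3775)*x^12 + 5380*x^11 + 9107*x^10 + 4113*x^9 + (-773)*x^8 + (-1356)*x^7 + (-422)*x^6 + 12*x^5 + 42*x^4 + 11*x^3 + 1*x^2)*y^4 +
    ((-1)*x^22 + (-15)*x^21 + (-96)*x^20 + (-347)*x^19 + (-793)*x^18 + (-1393)*x^17 + (-824)*x^16 + 2545*x^15 + 2754*x^14 + (-7263)*x^13 + (-15213)*x^12 + (-5691)*x^11 + 9218*x^10 + 10860*x^9 + 3298*x^8 + (-1365)*x^7 + (-1355)*x^6 + (-325)*x^5 + 57*x^4 + 45*x^3 + 7*x^2)*y^5 +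
    (2*x^23 + 25*x^22 + 116*x^21 + 199*x^20 + (-247)*x^19 + (-1791)*x^18 + (-4416)*x^17 + (-5561)*x^16 + 489*x^15 + 9729*x^14 + 4580*x^13 + (-14079)*x^12 + (-19148)*x^11 + (-2915)*x^10 + 10936*x^9 + 8820*x^8 + 1116*x^7 + (-1856)*x^6 + (-977)*x^5 + (-40)*x^4 + 91*x^3 + 20*x^2)*y^6 +
    ((-1)*x^24 + (-7)*x^23 + 16*x^22 + 295*x^21 + 1129*x^20 + 1695*x^19 + (-236)*x^18 + (-5621)*x^17 + (-10622)*x^16 + (-6817)*x^15 + 7145*x^14 + 14507*x^13 + 1116*x^12 + (-17089)*x^11 + (-14992)*x^10 + 1530*x^9 + 9130*x^8 + 4273*x^7 + (-895)*x^6 + (-1298)*x^5 + (-222)*x^4 + 97*x^3 + 30*x^2)*y^7 +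
    ((-3)*x^24 + (-34)*x^23 + (-124)*x^22 + (-17)*x^21 + 1161*x^20 + 3348*x^19 + 3184*x^18 + (-2629)*x^17 + (-10298)*x^16 + (-11026)*x^15 + (-1448)*x^14 + 10274*x^13 + 10324*x^12 + (-3834)*x^11 + (-13611)*x^10 + (-6690)*x^9 + 3592*x^8 + 4428*x^7 + 564*x^6 + (-853)*x^5 + (-287)*x^4 + 49*x^3 + 25*x^2)*y^8 +
    ((-3)*x^24 + (-40)*x^23 + (-203)*x^22 + (-428)*x^21 + 150*x^20 + 2472*x^19 + 4372*x^18 + 1565*x^17 + (-4680)*x^16 + (-7672)*x^15 + (-4551)*x^14 + 2012*x^13 + 7017*x^12 + 3542*x^11 + (-4788)*x^10 + (-6091)*x^9 + (-808)*x^8 + 2034*x^7 + 909*x^6 + (-211)*x^5 + (-174)*x^4 + 3*x^3 + 11*x^2)*y^9 +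
    ((-1)*x^24 + (-16)*x^23 + (-108)*x^22 + (-347)*x^21 + (-395)*x^20 + 586*x^19 + 2231*x^18 + 2158*x^17 + (-323)*x^16 + (-2437)*x^15 + (-2329)*x^14 + (-734)*x^13 + 1762*x^12 + 2476*x^11 + (-84)*x^10 + (-2044)*x^9 + (-1094)*x^8 + 312*x^7 + 405*x^6 + 35*x^5 + (-48)*x^4 + (-7)*x^3 + 2*x^2)*y^10 +
    ((-2)*x^23 + (-24)*x^22 + (-110)*x^21 + (-228)*x^20 + (-138)*x^19 + 280*x^18 + 562*x^17 + 260*x^16 + (-248)*x^15 + (-412)*x^14 + (-298)*x^13 + 88*x^12 + 448*x^11 + 228*x^10 + (-212)*x^9 + (-244)*x^8 + (-24)*x^7 + 60*x^6 + 20*x^5 + (-4)*x^4 + (-2)*x^3)*y^11) * h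

set_option maxHeartbeats 4000000 in
lemma poly13b {R : Type*} [CommRing R] {x y : R} (h : y^2+(x^3+x^2+1)*y-x^2-x = 0) :
    (-(((y+1+(y+1-x*y)*x*y)^2+4*(1-x*y)*(y+1-x*y)*x*y*(y+1))^2)*((1-x*y)^3*(y+1-x*y)^3*x^3*y^3)
      -8*((y+1+(y+1-x*y)*x*y)*(1-x*y)*(y+1-x*y)*x*y)^3*(y+1)
      -27*((1-x*y)^2*(y+1-x*y)^2*x^2*y^2)^2*(y+1)^3
      +9*((y+1+(y+1-x*y)*x*y)^2+4*(1-x*y)*(y+1-x*y)*x*y*(y+1))*((y+1+(y+1-x*y)*x*y)*(1-x*y)*(y+1-x*y)*x*y)*((1-x*y)^2*(y+1-x*y)^2*x^2*y^2)*(y+1))*(x^2+x) =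
    (-(x^3+4*x^2+x-1))*(-(1-x*y)*(y+1-x*y)^2*x^2*y^5*(x+y+1))^2*(y+1) := by
  linear_combination ((0) +
    (0)*y +
    (0)*y^2 +
    (0)*y^3 +
    (0)*y^4 +
    (0)*y^5 +
    (0)*y^6 +
    ((-1)*x^7 + (-1)*x^6)*y^7 +
    (14*x^8 + 9*x^7 + (-6)*x^6 + (-1)*x^5)*y^8 +
    ((-68)*x^9 + 71*x^7 + (-2)*x^6 + (-6)*x^5 + (-1)*x^4)*y^9 +
    (169*x^10 + (-130)*x^9 + (-223)*x^8 + 129*x^7 + 51*x^6 + (-8)*x^5 + (-6)*x^4)*y^10 +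
    ((-244)*x^11 + 406*x^10 + 255*x^9 + (-512)*x^8 + (-26)*x^7 + 124*x^6 + 17*x^5 + (-15)*x^4)*y^11 +
    (211*x^12 + (-584)*x^11 + 11*x^10 + 833*x^9 + (-285)*x^8 + (-319)*x^7 + 88*x^6 + 65*x^5 + (-20)*x^4)*y^12 +
    ((-104)*x^13 + 456*x^12 + (-283)*x^11 + (-662)*x^10 + 623*x^9 + 295*x^8 + (-338)*x^7 + (-51)*x^6 + 84*x^5 + (-15)*x^4)*y^13 +
    (23*x^14 + (-190)*x^13 + 255*x^12 + 243*x^11 + (-538)*x^10 + (-64)*x^9 + 427*x^8 + (-87)*x^7 + (-117)*x^6 + 54*x^5 + (-6)*x^4)*y^14 +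
    (1*x^15 + 35*x^14 + (-91)*x^13 + (-24)*x^12 + 214*x^11 + (-46)*x^10 + (-250)*x^9 + 157*x^8 + 57*x^7 + (-69)*x^6 + 17*x^5 + (-1)*x^4)*y^15 +
    ((-1)*x^16 + (-1)*x^15 + 11*x^14 + (-4)*x^13 + (-34)*x^12 + 19*x^11 + 71*x^10 + (-84)*x^9 + 1*x^8 + 36*x^7 + (-16)*x^6 + 2*x^5)*y^16 +
    (1*x^13 + (-9)*x^11 + 15*x^10 + (-5)*x^9 + (-6)*x^8 + 5*x^7 + (-1)*x^6)*y^17) * h

end Fermat.Agent.Iso
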