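import Mathlib
import Fermat.Agent.Iso.Poly13

set_option autoImplicit false

namespace Fermat.Agent.Iso

variable {F : Type*} [Field F]

/-- `Δ` as a function of the shifted invariants -/
def eΔ (p q B C : F) : F := -p ^ 2 * C - 8 * q ^ 3 - 27 * B ^ 2 + 9 * p * q * B
/-- `c₆` as a function of the shifted invariants -/
def eC6 (p q B : F) : F := -p ^ 3 + 36 * p * q - 216 * B

lemma alg5 {p q B C X2 : F} (hB : B ≠ 0) (hX : X2 ≠ 0) (h4 : 4 * C = p * B - q ^ 2)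
    (h2 : X2 * B = -C) (h3 : X2 * X2 ^ 2 = q * X2 + B) :
    ∃ h : F, eΔ p q B C = X2 ^ 6 * h ∧
      eC6 p q B ^ 2 = X2 ^ 6 * (h ^ 2 + 22 * h + 125) * (h ^ 2 + 4 * h - 1) ^ 2 := by
  obtain ⟨e, rfl⟩ : ∃ e, X2 = -e := ⟨-X2, by ring⟩
  have he : e ≠ 0 := by rintro rfl; exact hX (by ring)
  obtain ⟨t, rfl⟩ : ∃ t, B = t * e ^ 3 := ⟨B / e ^ 3, by field_simp⟩
  have ht : t ≠ 0 := by rintro rfl; exact hB (by ring)
  have hC : C = t * e ^ 4 := by linear_combination h2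
  have hq : q = e ^ 2 * (1 + t) := by
    apply mul_left_cancel₀ he
    linear_combination h3
  have hp : p = e * (t ^ 2 + 6 * t + 1) / t := by
    rw [eq_div_iff ht]
    apply mul_left_cancel₀ (pow_ne_zero 3 he)
    rw [hC, hq] at h4
    linear_combination -h4
  refine ⟨(t ^ 2 - 11 * t - 1) / t, ?_, ?_⟩
  · rw [hp, hq, hC, eΔ]
    field_simp
    ring
  · rw [hp, hq, eC6]
    field_simp
    ring

lemma alg13 {p q B C X2 X3 X4 X5 X6 : F} (hB : B ≠ 0)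
    (hX2 : X2 ≠ 0) (hX3 : X3 ≠ 0) (hX4 : X4 ≠ 0) (hX5 : X5 ≠ 0) (hX6 : X6 ≠ 0)
    (hX23 : X2 ≠ X3) (hX62 : X6 ≠ X2)
    (h4 : 4 * C = p * B - q ^ 2)
    (e2 : X2 * B = -C) (e3 : X3 * X2 ^ 2 = q * X2 + B)
    (e4 : X4 * X2 * X3 ^ 2 = -(B * X3 + C)) (e5 : X5 * X3 * X4 ^ 2 = -(B * X4 + C))
    (e6 : X6 * X4 * X5 ^ 2 = -(B * X5 + C)) (e7 : X6 * X5 * X6 ^ 2 = -(B * X6 + C)) :
    ∃ h : F, eΔ p q B C = ((0 - X5) * (X2 - X3) * (X4 - X6)) ^ 2 * h ∧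
      eC6 p q B ^ 2 = ((0 - X5) * (X2 - X3) * (X4 - X6)) ^ 2 * (h ^ 2 + 6 * h + 13) *
        (h ^ 6 + 10 * h ^ 5 + 46 * h ^ 4 + 108 * h ^ 3 + 122 * h ^ 2 + 38 * h - 1) ^ 2 := by
  have hX23' : X2 - X3 ≠ 0 := sub_ne_zero.mpr hX23
  -- parametrize
  obtain ⟨r, hr⟩ : ∃ r, X2 = r * X3 := ⟨X2 / X3, by field_simp⟩
  obtain ⟨s, hs⟩ : ∃ s, X2 = s * X4 := ⟨X2 / X4, by field_simp⟩
  have hr0 : r ≠ 0 := by rintro rfl; exact hX2 (by rw [hr]; ring)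
  have hs0 : s ≠ 0 := by rintro rfl; exact hX2 (by rw [hs]; ring)
  have hr1 : r - 1 ≠ 0 := by
    intro h0
    apply hX23'
    linear_combination hr + X3 * h0
  obtain ⟨U, hU⟩ : ∃ U, X4 = U * (r * (r - 1)) := ⟨X4 / (r * (r - 1)), by field_simp⟩
  have hU0 : U ≠ 0 := by rintro rfl; exact hX4 (by rw [hU]; ring)
  have hX3U : X3 = U * (s * (r - 1)) := by
    apply mul_left_cancel₀ hr0
    rw [← hr, hs, hU]; ring
  have hX2U : X2 = U * (r * s * (r - 1)) := by rw [hs, hU]; ring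
  have hC : C = - X2 * B := by linear_combination e2
  have hBU : B = U ^ 3 * (r * s * (r - 1)) ^ 2 := by
    have h0 : B * (X2 - X3) = X4 * X2 * X3 ^ 2 := by rw [e4, hC]; ring
    apply mul_right_cancel₀ hX23'
    rw [h0, hX3U, hX2U, hU]; ring
  have hX5U : X5 = U * (r * s * (s - 1)) := by
    have h0 : X5 * (X3 * X4 ^ 2) = -B * (X4 - X2) := by
      rw [hC] at e5; linear_combination e5
    apply mul_right_cancel₀ (mul_ne_zero hX3 (pow_ne_zero 2 hX4))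
    rw [h0, hBU, hX3U, hX2U, hU]; ring
  have hs1 : s - 1 ≠ 0 := by intro h0; exact hX5 (by rw [hX5U, h0]; ring)
  have hX6U : X6 * (s - 1) ^ 2 = U * (s * (r - 1) * (r - s)) := by
    have h0 : X6 * (X4 * X5 ^ 2) = -B * (X5 - X2) := by
      rw [hC] at e6; linear_combination e6
    apply mul_right_cancel₀ (mul_ne_zero hX4 (pow_ne_zero 2 (mul_ne_zero (mul_ne_zero hU0 hr0) hs0)))
    have h1 : X6 * (X4 * X5 ^ 2) = X6 * (s - 1) ^ 2 * (X4 * (U * r * s) ^ 2) := by rw [hX5U]; ring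
    rw [← h1, h0, hBU, hX5U, hX2U, hU]; ring
  have hrs : r - s ≠ 0 := by
    intro h0
    rw [h0] at hX6U
    have : X6 * (s - 1) ^ 2 ≠ 0 := mul_ne_zero hX6 (pow_ne_zero 2 hs1)
    exact this (by rw [hX6U]; ring)
  -- the relation
  have hrel : (r - s) ^ 3 = r * (s - 1) ^ 3 * (r * s - 2 * r + 1) := by
    -- X6^3 X5 = -B (X6 - X2)
    have h0 : X6 ^ 3 * X5 = -B * (X6 - X2) := by
      rw [hC] at e7; linear_combination e7
    have h1 : (X6 * (s - 1) ^ 2) ^ 3 * X5 =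
        -B * (X6 * (s - 1) ^ 2 - X2 * (s - 1) ^ 2) * (s - 1) ^ 4 := by
      linear_combination (s - 1) ^ 6 * h0
    rw [hX6U, hX5U, hX2U, hBU] at h1
    have h2 : U ^ 4 * (s ^ 4 * (r - 1) ^ 3 * r * (s - 1)) * ((r - s) ^ 3 -
        r * (s - 1) ^ 3 * (r * s - 2 * r + 1)) = 0 := by
      linear_combination h1
    have h3 : U ^ 4 * (s ^ 4 * (r - 1) ^ 3 * r * (s - 1)) ≠ 0 := by
      refine mul_ne_zero (pow_ne_zero _ hU0) (mul_ne_zero (mul_ne_zero (mul_ne_zero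
        (pow_ne_zero _ hs0) (pow_ne_zero _ hr1)) hr0) hs1)
    exact sub_eq_zero.mp ((mul_eq_zero.mp h2).resolve_left h3)
  have h2r : 2 * r - 1 - r * s ≠ 0 := by
    intro h0
    have : (r - s) ^ 3 = 0 := by rw [hrel]; linear_combination (-r * (s - 1) ^ 3) * h0
    exact hrs (pow_eq_zero_iff (three_ne_zero) |>.mp this)
  -- x, y
  obtain ⟨y, hy⟩ : ∃ y, r - s = y * (s - 1) := ⟨(r - s) / (s - 1), by field_simp⟩
  have hy0 : y ≠ 0 := by rintro rfl; exact hrs (by rw [hy]; ring)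
  have hy1 : y + 1 ≠ 0 := by
    intro h0
    apply hr1
    linear_combination hy + (s - 1) * h0
  obtain ⟨x, hx⟩ : ∃ x, r = 1 - x * y := ⟨(1 - r) / y, by field_simp; ring⟩
  have hx0 : x ≠ 0 := by rintro rfl; exact hr1 (by rw [hx]; ring)
  have hsxy : s * (y + 1) = y + 1 - x * y := by
    rw [hx] at hy; linear_combination -hy
  have hF : y ^ 2 + (x ^ 3 + x ^ 2 + 1) * y - x ^ 2 - x = 0 := by
    -- y^3 = r (r s - 2 r + 1)
    have h1 : y ^ 3 = r * (r * s - 2 * r + 1) := by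
      apply mul_right_cancel₀ (pow_ne_zero 3 hs1)
      rw [hy] at hrel
      linear_combination hrel
    have h2 : y ^ 3 * (y + 1) = r * (r * (s * (y + 1)) - (2 * r - 1) * (y + 1)) := by
      rw [h1]; ring
    rw [hsxy, hx] at h2
    apply mul_left_cancel₀ (pow_ne_zero 2 hy0)
    linear_combination h2
  have hx1 : x + 1 ≠ 0 := by
    intro h0
    apply h2r
    apply mul_right_cancel₀ hy1
    have h1 : (2 * r - 1 - r * s) * (y + 1) = (2 * r - 1) * (y + 1) - r * (s * (y + 1)) := by ring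
    rw [h1, hsxy, hx]
    linear_combination (-x * y ^ 2) * h0
  obtain ⟨V, hV⟩ : ∃ V, U = V * (y + 1) ^ 2 := ⟨U / (y + 1) ^ 2, by field_simp⟩
  have hV0 : V ≠ 0 := by rintro rfl; exact hU0 (by rw [hV]; ring)
  have hXs2 : X2 = V * (y + 1) * ((1 - x * y) * (y + 1 - x * y) * (-(x * y))) := by
    rw [hX2U, hV]
    linear_combination V * (y + 1) * r * (r - 1) * hsxy + (V * (y + 1) * (y + 1 - x * y) *
      (r - x * y)) * hx
  have hBV : B = V ^ 3 * (y + 1) ^ 4 * ((1 - x * y) ^ 2 * (y + 1 - x * y) ^ 2 * x ^ 2 * y ^ 2) := by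
    have h1 : B = V ^ 3 * (y + 1) ^ 4 * (r * (s * (y + 1)) * (r - 1)) ^ 2 := by
      rw [hBU, hV]; ring
    rw [h1, hsxy, hx]; ring
  have hCV : C = V ^ 4 * (y + 1) ^ 5 * ((1 - x * y) ^ 3 * (y + 1 - x * y) ^ 3 * x ^ 3 * y ^ 3) := by
    rw [hC, hXs2, hBV]; ring
  have hxyne : (1 - x * y) * (y + 1 - x * y) * (-(x * y)) ≠ 0 := by
    intro h0; exact hX2 (by rw [hXs2, h0]; ring)
  have h1xy : (1 - x * y) ≠ 0 := by rw [← hx]; exact hr0
  have hSxy : (y + 1 - x * y) ≠ 0 := by rw [← hsxy]; exact mul_ne_zero hs0 hy1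
  have hXs3 : X3 = V * (y + 1) * ((y + 1 - x * y) * (-(x * y))) := by
    have h1 : X3 = V * (y + 1) * ((s * (y + 1)) * (r - 1)) := by rw [hX3U, hV]; ring
    rw [h1, hsxy, hx]; ring
  have hqV : q = V ^ 2 * (y + 1) ^ 2 * ((y + 1 + (y + 1 - x * y) * x * y) * (1 - x * y) *
      (y + 1 - x * y) * x * y) := by
    apply mul_right_cancel₀ hX2
    have h1 : q * X2 = X3 * X2 ^ 2 - B := by linear_combination -e3
    rw [h1, hXs3, hXs2, hBV]; ring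
  have hpV : p = V * ((y + 1 + (y + 1 - x * y) * x * y) ^ 2 + 4 * (1 - x * y) *
      (y + 1 - x * y) * x * y * (y + 1)) := by
    apply mul_right_cancel₀ hB
    have h1 : p * B = 4 * C + q ^ 2 := by linear_combination -h4
    rw [h1, hCV, hqV, hBV]; ring
  have hXs4 : X4 = V * (y + 1) ^ 2 * ((1 - x * y) * (-(x * y))) := by
    rw [hU, hV, hx]; ring
  have hXs5 : X5 = V * ((1 - x * y) * (y + 1 - x * y) * (-(x * y))) := by
    have h1 : X5 = V * (r * (s * (y + 1)) * (s * (y + 1) - (y + 1))) := by rw [hX5U, hV]; ring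
    rw [h1, hsxy, hx]; ring
  have hs1xy : (s - 1) * (y + 1) = -(x * y) := by linear_combination hsxy
  have hXs6 : X6 = V * (y + 1) ^ 2 * (y + 1 - x * y) * y := by
    apply mul_right_cancel₀ (pow_ne_zero 2 hs1)
    rw [hX6U, hy, hV]
    have h1 : V * (y + 1) ^ 2 * (s * (r - 1) * (y * (s - 1))) =
      V * (s * (y + 1)) * (r - 1) * y * ((s - 1) * (y + 1)) := by ring
    have h2 : V * (y + 1) ^ 2 * (y + 1 - x * y) * y * (s - 1) ^ 2 =
      V * (y + 1 - x * y) * y * ((s - 1) * (y + 1)) ^ 2 := by ring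
    rw [h1, h2, hs1xy, hsxy, hx]; ring
  have hxx : x ^ 2 + x ≠ 0 := by
    have : x ^ 2 + x = x * (x + 1) := by ring
    rw [this]; exact mul_ne_zero hx0 hx1
  -- Pi
  have hPi : (0 - X5) * (X2 - X3) * (X4 - X6) = V ^ 3 * (y + 1) ^ 3 *
      (-(1 - x * y) * (y + 1 - x * y) ^ 2 * x ^ 2 * y ^ 5 * (x + y + 1)) := by
    rw [hXs2, hXs3, hXs4, hXs5, hXs6]
    linear_combination (V ^ 3 * (y + 1) ^ 3 * ((1 - x * y) * (y + 1 - x * y) ^ 2 * x ^ 2 * y ^ 4)) * hF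
  set Pi := (0 - X5) * (X2 - X3) * (X4 - X6) with hPidef
  set hn := -(x ^ 3 + 4 * x ^ 2 + x - 1) with hhn
  have hY : (2 * y + x ^ 3 + x ^ 2 + 1) ^ 2 = hn ^ 2 + 6 * hn * (x ^ 2 + x) + 13 * (x ^ 2 + x) ^ 2 := by
    rw [hhn]; linear_combination 4 * hF
  refine ⟨hn / (x ^ 2 + x), ?_, ?_⟩
  · have h1 : eΔ p q B C * (x ^ 2 + x) = Pi ^ 2 * hn := by
      have h2 := poly13b hF
      rw [hPi, eΔ, hpV, hqV, hBV, hCV]
      linear_combination V ^ 6 * (y + 1) ^ 5 * h2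
    rw [mul_div_assoc', eq_div_iff hxx, h1]
  · have h1 : eC6 p q B * (x ^ 2 + x) ^ 7 = Pi * (2 * y + x ^ 3 + x ^ 2 + 1) *
        (hn ^ 6 + 10 * hn ^ 5 * (x ^ 2 + x) + 46 * hn ^ 4 * (x ^ 2 + x) ^ 2
          + 108 * hn ^ 3 * (x ^ 2 + x) ^ 3 + 122 * hn ^ 2 * (x ^ 2 + x) ^ 4
          + 38 * hn * (x ^ 2 + x) ^ 5 - (x ^ 2 + x) ^ 6) := by
      have h2 := poly13a hF
      rw [hPi, eC6, hpV, hqV, hBV]
      linear_combination V ^ 3 * h2
    have h2 : eC6 p q B ^ 2 * (x ^ 2 + x) ^ 14 = Pi ^ 2 * (hn ^ 2 + 6 * hn * (x ^ 2 + x) +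
        13 * (x ^ 2 + x) ^ 2) * (hn ^ 6 + 10 * hn ^ 5 * (x ^ 2 + x) + 46 * hn ^ 4 * (x ^ 2 + x) ^ 2
          + 108 * hn ^ 3 * (x ^ 2 + x) ^ 3 + 122 * hn ^ 2 * (x ^ 2 + x) ^ 4
          + 38 * hn * (x ^ 2 + x) ^ 5 - (x ^ 2 + x) ^ 6) ^ 2 := by
      have h3 : eC6 p q B ^ 2 * (x ^ 2 + x) ^ 14 = (eC6 p q B * (x ^ 2 + x) ^ 7) ^ 2 := by ring
      rw [h3, h1, mul_pow, mul_pow, hY]
    have hxx14 : (x ^ 2 + x) ^ 14 ≠ 0 := pow_ne_zero _ hxx
    apply mul_right_cancel₀ hxx14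
    rw [h2]
    generalize hn = a
    generalize x ^ 2 + x = d at hxx
    field_simp

end Fermat.Agent.Iso
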