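import Mathlib
import Fermat.Agent.Iso.XCoord
import Fermat.Agent.Iso.Alg

set_option autoImplicit false
set_option linter.unusedSectionVars false

namespace Fermat.Agent.Iso

open WeierstrassCurve WeierstrassCurve.Affine Polynomial

variable {F : Type*} [Field F] [DecidableEq F] {W : WeierstrassCurve.Affine F}

/-- difference of `x`-coordinates -/
def Xd (P : W.Point) (n : ℕ) : F := xc (n • P) - xc P

section order

variable {p : ℕ} {P : W.Point}

lemma nsmul_ne_zero_of_not_dvd (hp : p.Prime) (hP : P ≠ 0) (hpP : p • P = 0) {n : ℕ}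
    (hn : ¬ p ∣ n) : n • P ≠ 0 := by
  have := Fact.mk hp
  have h1 : addOrderOf P = p := addOrderOf_eq_prime hpP hP
  intro h0
  exact hn (h1 ▸ addOrderOf_dvd_of_nsmul_eq_zero h0)

lemma Xd_one : Xd P 1 = 0 := by simp [Xd]

lemma Xd_ne (hp : p.Prime) (hP : P ≠ 0) (hpP : p • P = 0) {m n : ℕ} (hm : ¬ p ∣ m)
    (hn : ¬ p ∣ n) (hadd : ¬ p ∣ m + n) (hlt : n < m) (hsub : ¬ p ∣ m - n) :
    Xd P m ≠ Xd P n := by
  intro h
  have h1 : xc (m • P) = xc (n • P) := by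
    simpa [Xd] using h
  rcases (xc_eq_iff (nsmul_ne_zero_of_not_dvd hp hP hpP hm)
    (nsmul_ne_zero_of_not_dvd hp hP hpP hn)).mp h1 with h2 | h2
  · apply nsmul_ne_zero_of_not_dvd hp hP hpP hsub
    have h3 : m • P = (m - n) • P + n • P := by
      rw [← add_nsmul, Nat.sub_add_cancel hlt.le]
    rw [h2] at h3
    have : (m - n) • P + n • P = 0 + n • P := by rw [← h3, zero_add]
    exact add_right_cancel this
  · apply nsmul_ne_zero_of_not_dvd hp hP hpP hadd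
    rw [add_nsmul, h2, neg_add_cancel]

lemma Xd_ne_zero (hp : p.Prime) (hP : P ≠ 0) (hpP : p • P = 0) {m : ℕ} (hm1 : 1 < m)
    (hm : ¬ p ∣ m) (hadd : ¬ p ∣ m + 1) (hsub : ¬ p ∣ m - 1) :
    Xd P m ≠ 0 := by
  rw [← Xd_one (P := P)]
  exact Xd_ne hp hP hpP hm (by
    intro h; exact hp.one_lt.ne' (Nat.dvd_one.mp h)) hadd hm1 hsub

lemma Xd_rel (hp : p.Prime) (hP : P ≠ 0) (hpP : p • P = 0) {m : ℕ} (hm : ¬ p ∣ m + 2)
    (hadd : ¬ p ∣ m + 3) (hsub : ¬ p ∣ m + 1) :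
    Xd P (m + 3) * Xd P (m + 1) * Xd P (m + 2) ^ 2 =
        -(cB W (xc P) * Xd P (m + 2) + cC W (xc P)) ∧
      (Xd P (m + 3) + Xd P (m + 1)) * Xd P (m + 2) ^ 2 =
        cq W (xc P) * Xd P (m + 2) + cB W (xc P) := by
  have h1 := nsmul_ne_zero_of_not_dvd hp hP hpP hm
  have h2 : xc ((m + 2) • P) ≠ xc P := by
    have := Xd_ne_zero hp hP hpP (m := m + 2) (by omega) hm hadd (by simpa using hsub)
    simp only [Xd] at this
    exact sub_ne_zero.mp this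
  have h3 := add_sub_rel hP h1 h2
  have e1 : (m + 2) • P + P = (m + 3) • P := by rw [← succ_nsmul]
  have e2 : (m + 2) • P - P = (m + 1) • P := by rw [succ_nsmul P (m + 1), add_sub_cancel_right]
  rw [e1, e2] at h3
  exact h3

lemma Xd_two (hp : p.Prime) (hP : P ≠ 0) (hpP : p • P = 0) (h2 : ¬ p ∣ 2) :
    cB W (xc P) ≠ 0 ∧ Xd P 2 * cB W (xc P) = - cC W (xc P) := by
  have h := nsmul_ne_zero_of_not_dvd hp hP hpP h2
  rw [two_nsmul] at h
  have := double_rel hP h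
  simpa [Xd, two_nsmul] using this

lemma Xd_refl (hpP : p • P = 0) {m n : ℕ} (h : m + n = p) : Xd P m = Xd P n := by
  have h1 : m • P = -(n • P) := by
    rw [eq_neg_iff_add_eq_zero, ← add_nsmul, h, hpP]
  simp [Xd, h1]

end order

/-- The relations for a point of order `5`. -/
lemma rel5 {P : W.Point} (hP : P ≠ 0) (h5 : 5 • P = 0) :
    cB W (xc P) ≠ 0 ∧ Xd P 2 ≠ 0 ∧ Xd P 2 * cB W (xc P) = - cC W (xc P) ∧
    Xd P 2 * Xd P 2 ^ 2 = cq W (xc P) * Xd P 2 + cB W (xc P) := by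
  have hp : Nat.Prime 5 := by norm_num
  obtain ⟨h1, h2⟩ := Xd_two hp hP h5 (by norm_num)
  refine ⟨h1, Xd_ne_zero hp hP h5 (by norm_num) (by norm_num) (by norm_num) (by norm_num), h2, ?_⟩
  have h3 := (Xd_rel hp hP h5 (m := 0) (by norm_num) (by norm_num) (by norm_num)).2
  have h4 : Xd P 3 = Xd P 2 := Xd_refl h5 (by norm_num)
  simp only [Nat.reduceAdd, h4, Xd_one, add_zero] at h3
  exact h3

/-- The relations for a point of order `13`. -/
lemma rel13 {P : W.Point} (hP : P ≠ 0) (h13 : 13 • P = 0) :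
    cB W (xc P) ≠ 0 ∧ Xd P 2 ≠ 0 ∧ Xd P 3 ≠ 0 ∧ Xd P 4 ≠ 0 ∧ Xd P 5 ≠ 0 ∧ Xd P 6 ≠ 0 ∧
    Xd P 2 ≠ Xd P 3 ∧ Xd P 6 ≠ Xd P 2 ∧ 
    Xd P 2 * cB W (xc P) = - cC W (xc P) ∧
    Xd P 3 * Xd P 2 ^ 2 = cq W (xc P) * Xd P 2 + cB W (xc P) ∧
    Xd P 4 * Xd P 2 * Xd P 3 ^ 2 = -(cB W (xc P) * Xd P 3 + cC W (xc P)) ∧
    Xd P 5 * Xd P 3 * Xd P 4 ^ 2 = -(cB W (xc P) * Xd P 4 + cC W (xc P)) ∧
    Xd P 6 * Xd P 4 * Xd P 5 ^ 2 = -(cB W (xc P) * Xd P 5 + cC W (xc P)) ∧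
    Xd P 6 * Xd P 5 * Xd P 6 ^ 2 = -(cB W (xc P) * Xd P 6 + cC W (xc P)) := by
  have hp : Nat.Prime 13 := by norm_num
  obtain ⟨h1, h2⟩ := Xd_two hp hP h13 (by norm_num)
  have h7 : Xd P 7 = Xd P 6 := Xd_refl h13 (by norm_num)
  have e3 := (Xd_rel hp hP h13 (m := 0) (by norm_num) (by norm_num) (by norm_num)).2
  have e4 := (Xd_rel hp hP h13 (m := 1) (by norm_num) (by norm_num) (by norm_num)).1
  have e5 := (Xd_rel hp hP h13 (m := 2) (by norm_num) (by norm_num) (by norm_num)).1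
  have e6 := (Xd_rel hp hP h13 (m := 3) (by norm_num) (by norm_num) (by norm_num)).1
  have e7 := (Xd_rel hp hP h13 (m := 4) (by norm_num) (by norm_num) (by norm_num)).1
  simp only [Nat.reduceAdd, h7, Xd_one, add_zero] at e3 e4 e5 e6 e7
  refine ⟨h1, Xd_ne_zero hp hP h13 (by norm_num) (by norm_num) (by norm_num) (by norm_num),
    Xd_ne_zero hp hP h13 (by norm_num) (by norm_num) (by norm_num) (by norm_num),
    Xd_ne_zero hp hP h13 (by norm_num) (by norm_num) (by norm_num) (by norm_num),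
    Xd_ne_zero hp hP h13 (by norm_num) (by norm_num) (by norm_num) (by norm_num),
    Xd_ne_zero hp hP h13 (by norm_num) (by norm_num) (by norm_num) (by norm_num),
    (Xd_ne hp hP h13 (by norm_num) (by norm_num) (by norm_num) (by norm_num) (by norm_num)).symm,
    Xd_ne hp hP h13 (by norm_num) (by norm_num) (by norm_num) (by norm_num) (by norm_num),
    h2, e3, e4, e5, e6, e7⟩

/-- value of `preΨ₄` -/
lemma eval_preΨ₄ (x : F) : (W.preΨ₄).eval x = cq W x * cC W x - cB W x ^ 2 := by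
  simp only [WeierstrassCurve.preΨ₄, cq, cC, cB]
  simp only [eval_add, eval_mul, eval_C, eval_pow, eval_X, eval_ofNat]
  have h := W.b_relation
  linear_combination x ^ 2 * h

lemma eval_Ψ₂Sq (x : F) : (W.Ψ₂Sq).eval x = cB W x := by
  simp only [WeierstrassCurve.Ψ₂Sq, cB]
  simp only [eval_add, eval_mul, eval_C, eval_pow, eval_X]

lemma eval_Ψ₃ (x : F) : (W.Ψ₃).eval x = cC W x := by
  simp only [WeierstrassCurve.Ψ₃, cC]
  simp only [eval_add, eval_mul, eval_C, eval_pow, eval_X, eval_ofNat]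

/-- `5`-division polynomial vanishes -/
lemma preΨ5 {P : W.Point} (hP : P ≠ 0) (h5 : 5 • P = 0) : (W.preΨ' 5).eval (xc P) = 0 := by
  obtain ⟨hB, hX2, e2, e3⟩ := rel5 hP h5
  have h := W.preΨ'_odd 0
  norm_num at h
  rw [h]
  simp only [eval_sub, eval_mul, eval_pow, eval_preΨ₄, eval_Ψ₂Sq, eval_Ψ₃]
  generalize cB W (xc P) = B at *
  generalize cC W (xc P) = C at *
  generalize cq W (xc P) = q at *
  generalize Xd P 2 = X2 at *
  have hC : C = -X2 * B := by linear_combination e2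
  rw [hC]
  linear_combination (B ^ 3) * e3

/-- `13`-division polynomial vanishes -/
lemma preΨ13 {P : W.Point} (hP : P ≠ 0) (h13 : 13 • P = 0) : (W.preΨ' 13).eval (xc P) = 0 := by
  obtain ⟨hB, hX2, hX3, hX4, hX5, hX6, hX23, hX62, e2, e3, e4, e5, e6, e7⟩ := rel13 hP h13
  have w5 := W.preΨ'_odd 0
  have w6 := W.preΨ'_even 0
  have w7 := W.preΨ'_odd 1
  have w8 := W.preΨ'_even 1
  have w13 := W.preΨ'_odd 4
  norm_num [Nat.even_iff] at w5 w6 w7 w8 w13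
  have v5 := congrArg (Polynomial.eval (xc P)) w5
  have v6 := congrArg (Polynomial.eval (xc P)) w6
  have v7 := congrArg (Polynomial.eval (xc P)) w7
  have v8 := congrArg (Polynomial.eval (xc P)) w8
  have v13 := congrArg (Polynomial.eval (xc P)) w13
  simp only [eval_sub, eval_mul, eval_pow, eval_Ψ₂Sq, eval_Ψ₃] at v5 v6 v7 v8 v13
  have v4 := eval_preΨ₄ (W := W) (xc P)
  rw [v13]
  generalize Polynomial.eval (xc P) (W.preΨ' 5) = P5 at *
  generalize Polynomial.eval (xc P) (W.preΨ' 6) = P6 at *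
  generalize Polynomial.eval (xc P) (W.preΨ' 7) = P7 at *
  generalize Polynomial.eval (xc P) (W.preΨ' 8) = P8 at *
  generalize Polynomial.eval (xc P) (W.preΨ₄) = D at *
  generalize cB W (xc P) = B at *
  generalize cC W (xc P) = C at *
  generalize cq W (xc P) = q at *
  generalize Xd P 2 = X2 at *
  generalize Xd P 3 = X3 at *
  generalize Xd P 4 = X4 at *
  generalize Xd P 5 = X5 at *
  generalize Xd P 6 = X6 at *
  clear w5 w6 w7 w8 w13 v13
  have hC : C = -X2 * B := by linear_combination e2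
  have hC0 : C ≠ 0 := by rw [hC]; exact mul_ne_zero (neg_ne_zero.mpr hX2) hB
  have f3 : X3 * C ^ 2 = -(D * B) := by
    rw [v4, hC]; linear_combination B ^ 2 * e3
  have hD0 : D ≠ 0 := by
    intro h0
    have : X3 * C ^ 2 ≠ 0 := mul_ne_zero hX3 (pow_ne_zero _ hC0)
    exact this (by rw [f3, h0]; ring)
  have f4 : X4 * (D ^ 2 * B) = -(P5 * C) := by
    apply mul_left_cancel₀ (mul_ne_zero hB hC0)
    have h1 : X4 * (X2 * B) * (X3 * C ^ 2) ^ 2 = -(B * (B * (X3 * C ^ 2) * C ^ 2 + C ^ 5)) := by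
      linear_combination (B * C ^ 4) * e4
    rw [e2, f3] at h1
    rw [v5]
    linear_combination -h1
  have hP50 : P5 ≠ 0 := by
    intro h0
    have : X4 * (D ^ 2 * B) ≠ 0 := mul_ne_zero hX4 (mul_ne_zero (pow_ne_zero _ hD0) hB)
    exact this (by rw [f4, h0]; ring)
  have f5 : X5 * P5 ^ 2 = -(P6 * D * B) := by
    apply mul_left_cancel₀ (mul_ne_zero (mul_ne_zero hB (pow_ne_zero 2 hC0)) hD0)
    have h1 : X5 * (X3 * C ^ 2) * (X4 * (D ^ 2 * B)) ^ 2 =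
        -(B * (X4 * (D ^ 2 * B)) * (D ^ 2 * B) + C * (D ^ 2 * B) ^ 2) * C ^ 2 := by
      linear_combination (C ^ 2 * (D ^ 2 * B) ^ 2) * e5
    rw [f4, f3] at h1
    rw [v6]
    linear_combination -h1
  have hP60 : P6 ≠ 0 := by
    intro h0
    have : X5 * P5 ^ 2 ≠ 0 := mul_ne_zero hX5 (pow_ne_zero _ hP50)
    exact this (by rw [f5, h0]; ring)
  have f6 : X6 * (P6 ^ 2 * B) = -(P7 * P5) := by
    apply mul_left_cancel₀ (mul_ne_zero (mul_ne_zero (mul_ne_zero hB hC0) hP50) (pow_ne_zero 2 hD0))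
    have h1 : X6 * (X4 * (D ^ 2 * B)) * (X5 * P5 ^ 2) ^ 2 =
        -(B * (X5 * P5 ^ 2) * P5 ^ 2 + C * P5 ^ 4) * (D ^ 2 * B) := by
      linear_combination ((D ^ 2 * B) * P5 ^ 4) * e6
    rw [f4, f5] at h1
    have h2 : B ^ 2 * D * P6 - C * P5 ^ 2 = C * P7 := by
      rw [v6, v7]; linear_combination (C * P5) * (-v5)
    linear_combination -h1 - (B * D ^ 2 * P5 ^ 2) * h2
  have hP70 : P7 ≠ 0 := by
    intro h0
    have : X6 * (P6 ^ 2 * B) ≠ 0 := mul_ne_zero hX6 (mul_ne_zero (pow_ne_zero _ hP60) hB)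
    exact this (by rw [f6, h0]; ring)
  have f7 : X6 * P7 ^ 2 = -(P8 * P6 * B) := by
    apply mul_left_cancel₀ (mul_ne_zero (mul_ne_zero (mul_ne_zero hB hD0) hP60) (pow_ne_zero 2 hP50))
    have h1 : X6 * (X5 * P5 ^ 2) * (X6 * (P6 ^ 2 * B)) ^ 2 =
        -((X6 * (P6 ^ 2 * B)) * (P6 ^ 2 * B ^ 2) + C * (P6 ^ 2 * B) ^ 2) * P5 ^ 2 := by
      linear_combination (P5 ^ 2 * (P6 ^ 2 * B) ^ 2) * e7
    rw [f6, f5] at h1
    have h2 : P7 * P5 - C * P6 ^ 2 = D * P8 := by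
      rw [v8, v7, v6]; linear_combination (D ^ 2 * P5) * v5
    linear_combination -h1 - (B ^ 2 * P6 ^ 2 * P5 ^ 2) * h2
  linear_combination (P6 ^ 2 * B) * f7 - P7 ^ 2 * f6

end Fermat.Agent.Iso
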