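import Mathlib
import Fermat.Agent.Iso.Mult
import Fermat.Prelude.Def_FLTPrelim_GaloisRep

set_option autoImplicit false
set_option linter.unusedSectionVars false

namespace Fermat.Agent.Iso

open WeierstrassCurve WeierstrassCurve.Affine Polynomial

variable {F : Type*} [Field F] [DecidableEq F] {W : WeierstrassCurve.Affine F}

/-- If the `x`-coordinates of all nonzero points of `S` are roots of a nonzero polynomial `f`, then
`S` has at most `2 deg f + 1` elements. -/
lemma card_le_of_roots (S : Set W.Point) (f : F[X]) (hf : f ≠ 0)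
    (h : ∀ P ∈ S, P ≠ 0 → f.eval (xc P) = 0) : S.Finite ∧ S.ncard ≤ 2 * f.natDegree + 1 := by
  classical
  -- choose for each root a point
  let g : F → Finset W.Point := fun x =>
    if hx : ∃ P : W.Point, P ≠ 0 ∧ xc P = x then {hx.choose, -hx.choose} else ∅
  have hg : ∀ P : W.Point, P ≠ 0 → P ∈ g (xc P) := by
    intro P hP
    have hx : ∃ Q : W.Point, Q ≠ 0 ∧ xc Q = xc P := ⟨P, hP, rfl⟩
    simp only [g, dif_pos hx, Finset.mem_insert, Finset.mem_singleton]
    exact (xc_eq_iff hP hx.choose_spec.1).mp hx.choose_spec.2.symm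
  have hgc : ∀ x, (g x).card ≤ 2 := by
    intro x
    simp only [g]
    split_ifs with hx
    · exact Finset.card_le_two
    · simp
  let T : Finset W.Point := insert 0 (f.roots.toFinset.biUnion g)
  have hST : S ⊆ (T : Set W.Point) := by
    intro P hPS
    by_cases hP : P = 0
    · simp [T, hP]
    · have : xc P ∈ f.roots.toFinset := by
        rw [Multiset.mem_toFinset, mem_roots hf]
        exact h P hPS hP
      simp only [T, Finset.coe_insert, Set.mem_insert_iff, Finset.mem_coe, Finset.mem_biUnion]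
      exact Or.inr ⟨xc P, this, hg P hP⟩
  have hT : T.card ≤ 2 * f.natDegree + 1 := by
    have h1 : (f.roots.toFinset.biUnion g).card ≤ f.roots.toFinset.card * 2 :=
      Finset.card_biUnion_le_card_mul _ _ _ (fun x _ => hgc x)
    have h2 : f.roots.toFinset.card ≤ f.natDegree :=
      (Multiset.toFinset_card_le _).trans (card_roots' f)
    have h3 := Finset.card_insert_le 0 (f.roots.toFinset.biUnion g)
    calc T.card ≤ _ := h3
      _ ≤ f.roots.toFinset.card * 2 + 1 := by omega
      _ ≤ _ := by omega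
  refine ⟨(Finset.finite_toSet T).subset hST, ?_⟩
  calc S.ncard ≤ (T : Set W.Point).ncard := Set.ncard_le_ncard hST (Finset.finite_toSet T)
    _ = T.card := Set.ncard_coe_finset T
    _ ≤ _ := hT

/-- From the vanishing of `preΨ'_p` on `p`-torsion, `#E[p] ≤ p²`. -/
lemma torsion_card_le [CharZero F] {p : ℕ} (hp : p.Prime) (hodd : Odd p)
    (h : ∀ P : W.Point, P ≠ 0 → p • P = 0 → (W.preΨ' p).eval (xc P) = 0) :
    {P : W.Point | p • P = 0}.Finite ∧ {P : W.Point | p • P = 0}.ncard ≤ p ^ 2 := by
  have hne : W.preΨ' p ≠ 0 := W.preΨ'_ne_zero (by exact_mod_cast hp.ne_zero)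
  obtain ⟨h1, h2⟩ := card_le_of_roots {P : W.Point | p • P = 0} (W.preΨ' p) hne
    (fun P hP hP0 => h P hP0 hP)
  refine ⟨h1, h2.trans ?_⟩
  have h3 := W.natDegree_preΨ'_le p
  rw [if_neg (Nat.not_even_iff_odd.mpr hodd)] at h3
  have h4 : 0 < p ^ 2 := pow_pos hp.pos 2
  omega

end Fermat.Agent.Iso
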