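import Mathlib
import Fermat.Agent.Iso.Card
import Fermat.Prelude.Def_FLTPrelim_CofixedLine

set_option autoImplicit false
set_option linter.unusedSectionVars false

namespace Fermat.Agent.Iso

open WeierstrassCurve WeierstrassCurve.Affine WeierstrassCurve.Affine.Point Polynomial

local notation "ℚb" => AlgebraicClosure ℚ

lemma xc_smul {W' : WeierstrassCurve.Affine ℚ} (σ : ℚb ≃ₐ[ℚ] ℚb) (P : (W'⁄ℚb).Point) :
    xc (σ • P) = σ (xc P) := by
  rcases P with _ | ⟨x, y, h⟩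
  · simp [algEquiv_smul_def, xc, ← Point.zero_def]
  · rfl

/-- generator of a proper nonzero subspace of `E[p]`. -/
theorem exists_generator {W' : WeierstrassCurve.Affine ℚ} {p : ℕ} (hp : p.Prime) (hodd : Odd p)
    (hroot : ∀ P : (W'⁄ℚb).Point, P ≠ 0 → p • P = 0 → ((W'⁄ℚb).preΨ' p).eval (xc P) = 0)
    (N : Submodule (ZMod p) (Submodule.torsionBy ℤ (W'⁄ℚb).Point p))
    (h0 : N ≠ ⊥) (h1 : N ≠ ⊤) :
    ∃ P : (W'⁄ℚb).Point, P ≠ 0 ∧ p • P = 0 ∧
      (∀ h : P ∈ Submodule.torsionBy ℤ (W'⁄ℚb).Point p, (⟨P, h⟩ : Submodule.torsionBy ℤ (W'⁄ℚb).Point p) ∈ N) ∧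
      ∀ Q ∈ N, ∃ k : ℕ, (Q : (W'⁄ℚb).Point) = k • P := by
  have hpf : Fact p.Prime := ⟨hp⟩
  obtain ⟨hfin, hcard⟩ := torsion_card_le hp hodd hroot
  have hmem : ∀ P : (W'⁄ℚb).Point, P ∈ Submodule.torsionBy ℤ (W'⁄ℚb).Point p ↔ p • P = 0 := by
    intro P
    rw [Submodule.mem_torsionBy_iff]
    constructor
    · intro h; rw [← h]; exact (natCast_zsmul P p).symm
    · intro h; rw [← h]; exact (natCast_zsmul P p)
  have hset : ((Submodule.torsionBy ℤ (W'⁄ℚb).Point p : Submodule ℤ (W'⁄ℚb).Point) : Set (W'⁄ℚb).Point) =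
      {P : (W'⁄ℚb).Point | p • P = 0} := by
    ext P; exact hmem P
  have hfin' : Finite (Submodule.torsionBy ℤ (W'⁄ℚb).Point p) := by
    have : ((Submodule.torsionBy ℤ (W'⁄ℚb).Point p : Submodule ℤ (W'⁄ℚb).Point) : Set (W'⁄ℚb).Point).Finite := by
      rw [hset]; exact hfin
    exact this
  have hcard' : Nat.card (Submodule.torsionBy ℤ (W'⁄ℚb).Point p) ≤ p ^ 2 := by
    have : Nat.card (Submodule.torsionBy ℤ (W'⁄ℚb).Point p) =
        ({P : (W'⁄ℚb).Point | p • P = 0}).ncard := by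
      rw [← hset]; rfl
    rw [this]; exact hcard
  have : Fintype (Submodule.torsionBy ℤ (W'⁄ℚb).Point p) := Fintype.ofFinite _
  have hpow := Module.card_eq_pow_finrank (K := ZMod p) (V := Submodule.torsionBy ℤ (W'⁄ℚb).Point p)
  rw [ZMod.card, ← Nat.card_eq_fintype_card] at hpow
  rw [hpow] at hcard'
  have hrk : Module.finrank (ZMod p) (Submodule.torsionBy ℤ (W'⁄ℚb).Point p) ≤ 2 :=
    (Nat.pow_le_pow_iff_right hp.one_lt).mp hcard'
  have hfinmod : Module.Finite (ZMod p) (Submodule.torsionBy ℤ (W'⁄ℚb).Point p) :=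
    Module.Finite.of_finite
  have hN : Module.finrank (ZMod p) N ≤ 1 := by
    have := Submodule.finrank_lt h1
    omega
  obtain ⟨v, hv⟩ := finrank_le_one_iff.mp hN
  have hv0 : v ≠ 0 := by
    rintro rfl
    apply h0
    rw [Submodule.eq_bot_iff]
    intro x hx
    obtain ⟨c, hc⟩ := hv ⟨x, hx⟩
    rw [smul_zero] at hc
    exact (congrArg Subtype.val hc).symm
  refine ⟨((v : Submodule.torsionBy ℤ (W'⁄ℚb).Point p) : (W'⁄ℚb).Point), ?_, ?_, ?_, ?_⟩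
  · intro h
    apply hv0
    exact Subtype.ext (Subtype.ext h)
  · exact (hmem _).mp v.1.2
  · intro h; exact v.2
  · intro Q hQ
    obtain ⟨c, hc⟩ := hv ⟨Q, hQ⟩
    refine ⟨c.val, ?_⟩
    have h2 : (c.val • v : N) = ⟨Q, hQ⟩ := by
      rw [← hc, ← Nat.cast_smul_eq_nsmul (ZMod p), ZMod.natCast_zmod_val]
    have h3 := congrArg (fun z : N => ((z : Submodule.torsionBy ℤ (W'⁄ℚb).Point p) : (W'⁄ℚb).Point)) h2
    simpa using h3.symm

/-- A generator and Galois action on it. -/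
theorem galois_generator {W' : WeierstrassCurve.Affine ℚ} {p : ℕ} (hp : p.Prime) (hodd : Odd p)
    (hroot : ∀ P : (W'⁄ℚb).Point, P ≠ 0 → p • P = 0 → ((W'⁄ℚb).preΨ' p).eval (xc P) = 0)
    (N : Submodule (ZMod p) (Submodule.torsionBy ℤ (W'⁄ℚb).Point p))
    (hst : IsGaloisStable ℚ N)
    (h0 : N ≠ ⊥) (h1 : N ≠ ⊤) :
    ∃ P : (W'⁄ℚb).Point, P ≠ 0 ∧ p • P = 0 ∧
      ∀ σ : ℚb ≃ₐ[ℚ] ℚb, ∃ k : ℕ, ¬ p ∣ k ∧ ∀ i : ℕ, σ (xc (i • P)) = xc ((k * i) • P) := by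
  obtain ⟨P, hP0, hpP, hPN, hgen⟩ := exists_generator hp hodd hroot N h0 h1
  refine ⟨P, hP0, hpP, fun σ => ?_⟩
  have hPt : P ∈ Submodule.torsionBy ℤ (W'⁄ℚb).Point p := by
    rw [Submodule.mem_torsionBy_iff, ← hpP]; exact natCast_zsmul P p
  obtain ⟨k, hk⟩ := hgen _ (hst σ _ (hPN hPt))
  have hk' : σ • P = k • P := hk
  refine ⟨k, ?_, ?_⟩
  · rintro ⟨m, rfl⟩
    rw [mul_nsmul, hpP, nsmul_zero] at hk'
    apply hP0
    have := congrArg (fun z => σ⁻¹ • z) hk'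
    simpa using this
  · intro i
    rw [← xc_smul]
    have : σ • (i • P) = (k * i) • P := by
      rw [mul_nsmul, ← hk']
      exact (Point.map σ.toAlgHom).map_nsmul i P
    rw [this]

lemma isAlgebraic_Qbar : Algebra.IsAlgebraic ℚ ℚb := by
  have h : ∀ (A : Algebra ℚ ℚb), @Algebra.IsAlgebraic ℚ ℚb _ _ A := by
    intro A
    have : A = AlgebraicClosure.instAlgebra ℚ := Subsingleton.elim _ _
    subst this
    exact AlgebraicClosure.isAlgebraic ℚ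
  exact h _

lemma isAlgClosure_Qbar : IsAlgClosure ℚ ℚb :=
  have := isAlgebraic_Qbar
  ⟨inferInstance, inferInstance⟩

/-- rationality criterion -/
lemma rational_of_fixed (x : ℚb) (h : ∀ σ : ℚb ≃ₐ[ℚ] ℚb, σ x = x) : ∃ r : ℚ, algebraMap ℚ ℚb r = x := by
  have ha := isAlgebraic_Qbar
  have hc := isAlgClosure_Qbar
  have hn : Normal ℚ ℚb := IsAlgClosure.normal ℚ ℚb
  have hs : Algebra.IsSeparable ℚ ℚb := inferInstance
  have hg : IsGalois ℚ ℚb := isGalois_iff.mpr ⟨hs, hn⟩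
  have := (InfiniteGalois.mem_bot_iff_fixed (k := ℚ) (K := ℚb) x).mpr h
  exact IntermediateField.mem_bot.mp this

end Fermat.Agent.Iso
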