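import Mathlib

set_option autoImplicit false

namespace Fermat.Agent.Iso

lemma fourth_pow_of_pos {u v e : ℤ} (hu : 0 < u) (huv : IsCoprime u v)
    (h : u * v = e ^ 4) : ∃ r : ℤ, u = r ^ 4 := by
  obtain ⟨d, hd⟩ := exists_associated_pow_of_mul_eq_pow' huv h
  rcases Int.associated_iff.mp hd with h1 | h1
  · exact ⟨d, h1.symm⟩
  · exfalso
    have : 0 ≤ d ^ 4 := by positivity
    omega

/-- Type A -> type B step. -/
lemma stepAB {k M e N : ℤ} (hcop : IsCoprime M e) (he : e ≠ 0) (hkpos : 0 < k)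
    (h : N ^ 2 = (M ^ 2 + k * e ^ 2) ^ 2 + 4 * e ^ 4) :
    ∃ r s : ℤ, IsCoprime r s ∧ r * s ≠ 0 ∧ (r * s) ^ 2 = e ^ 2 ∧
      M ^ 2 = s ^ 4 - k * s ^ 2 * r ^ 2 - r ^ 4 := by
  wlog hN : 0 ≤ N generalizing N
  · exact this (N := -N) (by rw [← h]; ring) (by omega)
  have he2 : 0 < e ^ 2 := by positivity
  have he4 : 0 < e ^ 4 := by positivity
  set A := M ^ 2 + k * e ^ 2 with hA
  have hApos : 0 < A := by positivity
  have hNA : A < N := by
    by_contra hcon
    push Not at hcon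
    nlinarith
  -- parity
  have hpar : Even (N - A) := by
    have h1 : Even (N ^ 2 - A ^ 2) := ⟨2 * e ^ 4, by rw [h]; ring⟩
    have h2 : N ^ 2 - A ^ 2 = (N - A) * (N + A) := by ring
    rw [h2, Int.even_mul] at h1
    rcases h1 with h1 | h1
    · exact h1
    · have : N - A = (N + A) - 2 * A := by ring
      rw [this]
      exact h1.sub (even_two_mul A)
  obtain ⟨u, hu⟩ := hpar
  set v := u + A with hv
  have huv : u * v = e ^ 4 := by
    have h1 : N = 2 * u + A := by linarith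
    rw [h1] at h
    have : 4 * (u * v) = 4 * e ^ 4 := by rw [hv]; linarith
    linarith
  have hupos : 0 < u := by linarith
  have hvpos : 0 < v := by linarith
  have hcopuv : IsCoprime u v := by
    rw [Int.isCoprime_iff_gcd_eq_one]
    by_contra hg
    obtain ⟨q, hq, hqu, hqv⟩ := Nat.Prime.not_coprime_iff_dvd.mp hg
    have hqu' : (q : ℤ) ∣ u := Int.natCast_dvd.mpr hqu
    have hqv' : (q : ℤ) ∣ v := Int.natCast_dvd.mpr hqv
    have hqp : Prime (q : ℤ) := Nat.prime_iff_prime_int.mp hq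
    have hqe : (q : ℤ) ∣ e := by
      apply hqp.dvd_of_dvd_pow (n := 4)
      rw [← huv]
      exact Dvd.dvd.mul_right hqu' v
    have hqA : (q : ℤ) ∣ A := by
      have : A = v - u := by rw [hv]; ring
      rw [this]
      exact dvd_sub hqv' hqu'
    have hqM : (q : ℤ) ∣ M := by
      apply hqp.dvd_of_dvd_pow (n := 2)
      have : M ^ 2 = A - k * e ^ 2 := by rw [hA]; ring
      rw [this]
      exact dvd_sub hqA (Dvd.dvd.mul_left (Dvd.dvd.pow hqe two_ne_zero) k)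
    have := hcop.isUnit_of_dvd' hqM hqe
    exact hqp.not_isUnit this
  obtain ⟨r, hr⟩ := fourth_pow_of_pos hupos hcopuv huv
  obtain ⟨s, hs⟩ := fourth_pow_of_pos hvpos hcopuv.symm (by rw [mul_comm]; exact huv)
  have hrs : IsCoprime r s := by
    rw [hr, hs] at hcopuv
    exact (IsCoprime.pow_iff (by norm_num) (by norm_num)).mp hcopuv
  have hrs4 : (r * s) ^ 4 = e ^ 4 := by
    rw [mul_pow, ← hr, ← hs, huv]
  have hrs2 : (r * s) ^ 2 = e ^ 2 := by
    have h1 : ((r * s) ^ 2) ^ 2 = (e ^ 2) ^ 2 := by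
      rw [← pow_mul, ← pow_mul]; exact hrs4
    exact (pow_left_inj₀ (by positivity) (by positivity) two_ne_zero).mp h1
  refine ⟨r, s, hrs, ?_, hrs2, ?_⟩
  · intro h0
    rw [h0] at hrs2
    nlinarith
  · have h1 : M ^ 2 = v - u - k * e ^ 2 := by rw [hv, hA]; ring
    rw [h1, hr, hs, ← hrs2]
    ring

/-- Type B -> type A step, for `D = k^2+4 = q^j`. -/
lemma stepBA {k : ℤ} {q j : ℕ} (hq : q.Prime) (hD : (q : ℤ) ^ j = k ^ 2 + 4)
    (hk8 : k % 8 = 3)
    (hres : ∀ s r : ℤ, (q : ℤ) ∣ s ^ 2 - 2 * k * r ^ 2 → (q : ℤ) ∣ s ∧ (q : ℤ) ∣ r)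
    {r s M : ℤ} (hrs : IsCoprime r s) (hr : r * s ≠ 0)
    (h : M ^ 2 = s ^ 4 - k * s ^ 2 * r ^ 2 - r ^ 4) :
    ∃ α β N : ℤ, IsCoprime α β ∧ β ≠ 0 ∧ 4 * β ^ 2 ≤ r ^ 2 ∧
      N ^ 2 = (α ^ 2 + k * β ^ 2) ^ 2 + 4 * β ^ 4 := by
  have hr0 : r ≠ 0 := left_ne_zero_of_mul hr
  have hs0 : s ≠ 0 := right_ne_zero_of_mul hr
  have hqp : Prime (q : ℤ) := Nat.prime_iff_prime_int.mp hq
  -- parity analysis mod 8
  have hpar : r % 2 = 0 ∧ s % 2 = 1 ∧ M % 2 = 1 := by
    have key : ∀ r' s' M' k' : ZMod 8, k' = 3 → M' ^ 2 = s' ^ 4 - k' * s' ^ 2 * r' ^ 2 - r' ^ 4 →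
        (r'.val % 2 = 0 ∧ s'.val % 2 = 1 ∧ M'.val % 2 = 1) ∨ (r'.val % 2 = 0 ∧ s'.val % 2 = 0) := by
      decide
    have hk' : ((k : ℤ) : ZMod 8) = 3 := by
      have : (k : ZMod 8) = ((k % 8 : ℤ) : ZMod 8) := by
        rw [ZMod.intCast_mod k 8 |>.symm]; simp
      rw [this, hk8]; norm_num
    have h8 : ((M : ℤ) : ZMod 8) ^ 2 = (s : ZMod 8) ^ 4 - (k : ZMod 8) * (s : ZMod 8) ^ 2 * (r : ZMod 8) ^ 2 - (r : ZMod 8) ^ 4 := by
      exact_mod_cast congrArg (Int.cast : ℤ → ZMod 8) h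
    have hval : ∀ x : ℤ, (((x : ZMod 8)).val : ℤ) % 2 = x % 2 := by
      intro x
      have : (((x : ZMod 8)).val : ℤ) = x % 8 := by
        rw [ZMod.val_intCast]; rfl
      rw [this]; omega
    have := key r s M k hk' h8
    have e1 := hval r
    have e2 := hval s
    have e3 := hval M
    rcases this with ⟨h1, h2, h3⟩ | ⟨h1, h2⟩
    · refine ⟨by omega, by omega, by omega⟩
    · exfalso
      have hr2 : (2 : ℤ) ∣ r := by omega
      have hs2 : (2 : ℤ) ∣ s := by omega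
      have := hrs.isUnit_of_dvd' hr2 hs2
      exact Int.prime_two.not_isUnit this
  obtain ⟨hr2, hs2, hM2⟩ := hpar
  obtain ⟨t, ht⟩ : ∃ t, r = 2 * t := ⟨r / 2, by omega⟩
  have ht0 : t ≠ 0 := by rintro rfl; apply hr0; rw [ht]; ring
  set S := s ^ 2 - 2 * k * t ^ 2 with hS
  have hSodd : S % 2 = 1 := by
    have : s ^ 2 % 2 = 1 := by rw [sq, Int.mul_emod, hs2]; decide
    have h3 : S = s ^ 2 - 2 * (k * t ^ 2) := by rw [hS]; ring
    omega
  obtain ⟨A, hA⟩ : ∃ A, S - M = 2 * A := ⟨(S - M) / 2, by omega⟩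
  set B := A + M with hB
  have hSAB : S = A + B := by linarith
  have hprod : A * B = (q : ℤ) ^ j * t ^ 4 := by
    have h1 : M ^ 2 = S ^ 2 - 4 * (k ^ 2 + 4) * t ^ 4 := by
      rw [h, hS, ht]; ring
    have h2 : S ^ 2 - M ^ 2 = 4 * (A * B) := by
      have : M = B - A := by rw [hB]; ring
      rw [hSAB, this]; ring
    have h3 : 4 * (A * B) = 4 * ((q : ℤ) ^ j * t ^ 4) := by
      rw [← h2, h1, hD]; ring
    linarith
  have hcop : IsCoprime A B := by
    rw [Int.isCoprime_iff_gcd_eq_one]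
    by_contra hg
    obtain ⟨l, hl, hlA, hlB⟩ := Nat.Prime.not_coprime_iff_dvd.mp hg
    have hlA' : (l : ℤ) ∣ A := Int.natCast_dvd.mpr hlA
    have hlB' : (l : ℤ) ∣ B := Int.natCast_dvd.mpr hlB
    have hlp : Prime (l : ℤ) := Nat.prime_iff_prime_int.mp hl
    have hlS : (l : ℤ) ∣ S := by rw [hSAB]; exact dvd_add hlA' hlB'
    have hlprod : (l : ℤ) ∣ (q : ℤ) ^ j * t ^ 4 := by
      rw [← hprod]; exact Dvd.dvd.mul_right hlA' B
    have hlst : (l : ℤ) ∣ s ∧ (l : ℤ) ∣ t := by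
      rcases hlp.dvd_or_dvd hlprod with h1 | h1
      · have h2 := hlp.dvd_of_dvd_pow h1
        have h3 : l = q := (Nat.prime_dvd_prime_iff_eq hl hq).mp (Int.natCast_dvd_natCast.mp h2)
        rw [h3] at hlS ⊢
        exact hres s t hlS
      · have h2 := hlp.dvd_of_dvd_pow h1
        refine ⟨?_, h2⟩
        apply hlp.dvd_of_dvd_pow (n := 2)
        have : s ^ 2 = S + 2 * k * t ^ 2 := by rw [hS]; ring
        rw [this]
        exact dvd_add hlS (Dvd.dvd.mul_left (Dvd.dvd.pow h2 two_ne_zero) _)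
    have h5 : (l : ℤ) ∣ r := by rw [ht]; exact Dvd.dvd.mul_left hlst.2 2
    exact hlp.not_isUnit (hrs.isUnit_of_dvd' h5 hlst.1)
  -- general finishing: A*B = q^j t^4, coprime, A+B = s^2-2kt^2
  have finish : ∀ A B : ℤ, IsCoprime A B → A * B = (q : ℤ) ^ j * t ^ 4 → S = A + B →
      (q : ℤ) ^ j ∣ B → ∃ α β N : ℤ, IsCoprime α β ∧ β ≠ 0 ∧ 4 * β ^ 2 ≤ r ^ 2 ∧
      N ^ 2 = (α ^ 2 + k * β ^ 2) ^ 2 + 4 * β ^ 4 := by
    intro A B hcop hprod hSAB hdvd
    obtain ⟨B', rfl⟩ := hdvd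
    have hqj : (q : ℤ) ^ j ≠ 0 := pow_ne_zero _ hqp.ne_zero
    have hprod' : A * B' = t ^ 4 := by
      have : (q : ℤ) ^ j * (A * B') = (q : ℤ) ^ j * t ^ 4 := by rw [← hprod]; ring
      exact mul_left_cancel₀ hqj this
    have hcop' : IsCoprime A B' := IsCoprime.of_mul_right_right hcop
    have ht4 : 0 < t ^ 4 := by positivity
    have hqjpos : 0 < (q : ℤ) ^ j := by rw [hD]; positivity
    rcases lt_trichotomy A 0 with hneg | hz | hpos
    · -- negative: contradiction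
      exfalso
      have hB'neg : B' < 0 := by
        by_contra hcon
        push Not at hcon
        nlinarith
      obtain ⟨α, hα⟩ := fourth_pow_of_pos (u := -A) (v := -B') (e := t) (by linarith)
        (hcop'.neg_neg) (by rw [← hprod']; ring)
      obtain ⟨β, hβ⟩ := fourth_pow_of_pos (u := -B') (v := -A) (e := t) (by linarith)
        (hcop'.symm.neg_neg) (by rw [← hprod']; ring)
      have hab : (α * β) ^ 4 = t ^ 4 := by rw [mul_pow, ← hα, ← hβ, ← hprod']; ring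
      have hab2 : (α * β) ^ 2 = t ^ 2 := by
        have h1 : ((α * β) ^ 2) ^ 2 = (t ^ 2) ^ 2 := by
          rw [← pow_mul, ← pow_mul]; exact hab
        exact (pow_left_inj₀ (by positivity) (by positivity) two_ne_zero).mp h1
      have h1 : s ^ 2 = -((α ^ 2 - k * β ^ 2) ^ 2 + 4 * β ^ 4) := by
        have h2 : s ^ 2 = S + 2 * k * t ^ 2 := by rw [hS]; ring
        have hA' : A = - α ^ 4 := by linarith
        have hB' : B' = - β ^ 4 := by linarith
        rw [h2, hSAB, hA', hB', hD, ← hab2]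
        ring
      have h3 : 0 < s ^ 2 := by positivity
      nlinarith [sq_nonneg (α ^ 2 - k * β ^ 2), sq_nonneg (β ^ 2)]
    · exfalso
      rw [hz, zero_mul] at hprod'
      exact ht4.ne hprod'
    · have hB'pos : 0 < B' := by
        by_contra hcon
        push Not at hcon
        nlinarith
      obtain ⟨α, hα⟩ := fourth_pow_of_pos hpos hcop' hprod'
      obtain ⟨β, hβ⟩ := fourth_pow_of_pos hB'pos hcop'.symm (by rw [mul_comm]; exact hprod')
      have hab : (α * β) ^ 4 = t ^ 4 := by rw [mul_pow, ← hα, ← hβ, ← hprod']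
      have hab2 : (α * β) ^ 2 = t ^ 2 := by
        have h1 : ((α * β) ^ 2) ^ 2 = (t ^ 2) ^ 2 := by
          rw [← pow_mul, ← pow_mul]; exact hab
        exact (pow_left_inj₀ (by positivity) (by positivity) two_ne_zero).mp h1
      have hα0 : α ≠ 0 := by rintro rfl; rw [hα] at hpos; norm_num at hpos
      have hβ0 : β ≠ 0 := by rintro rfl; rw [hβ] at hB'pos; norm_num at hB'pos
      refine ⟨α, β, s, ?_, hβ0, ?_, ?_⟩
      · rw [hα, hβ] at hcop'
        exact (IsCoprime.pow_iff (by norm_num) (by norm_num)).mp hcop'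
      · have h1 : r ^ 2 = 4 * (α ^ 2 * β ^ 2) := by rw [ht, mul_pow, ← hab2]; ring
        have h2 : 1 ≤ α ^ 2 := by
          have : 0 < α ^ 2 := by positivity
          omega
        have h3 : 0 ≤ β ^ 2 := sq_nonneg β
        nlinarith
      · have h2 : s ^ 2 = S + 2 * k * t ^ 2 := by rw [hS]; ring
        rw [h2, hSAB, hα, hβ, hD, ← hab2]
        ring
  -- now q^j divides A or B
  have hqdiv : (q : ℤ) ^ j ∣ A ∨ (q : ℤ) ^ j ∣ B := by
    by_cases hqA : (q : ℤ) ∣ A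
    · left
      have hqB : ¬ (q : ℤ) ∣ B := fun hqB => hqp.not_isUnit (hcop.isUnit_of_dvd' hqA hqB)
      have : IsCoprime ((q : ℤ) ^ j) B :=
        ((Prime.coprime_iff_not_dvd hqp).mpr hqB).pow_left
      exact this.dvd_of_dvd_mul_right ⟨t ^ 4, hprod⟩
    · right
      have : IsCoprime ((q : ℤ) ^ j) A :=
        ((Prime.coprime_iff_not_dvd hqp).mpr hqA).pow_left
      exact this.dvd_of_dvd_mul_left ⟨t ^ 4, hprod⟩
  rcases hqdiv with h1 | h1
  · exact finish B A hcop.symm (by rw [mul_comm]; exact hprod) (by rw [hSAB]; ring) h1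
  · exact finish A B hcop hprod hSAB h1

theorem descent {k : ℤ} {q j : ℕ} (hq : q.Prime) (hD : (q : ℤ) ^ j = k ^ 2 + 4)
    (hk8 : k % 8 = 3) (hkpos : 0 < k)
    (hres : ∀ s r : ℤ, (q : ℤ) ∣ s ^ 2 - 2 * k * r ^ 2 → (q : ℤ) ∣ s ∧ (q : ℤ) ∣ r) :
    ∀ (n : ℕ) (M e N : ℤ), e.natAbs = n → IsCoprime M e → e ≠ 0 →
      N ^ 2 ≠ (M ^ 2 + k * e ^ 2) ^ 2 + 4 * e ^ 4 := by
  intro n
  induction n using Nat.strong_induction_on with
  | _ n ih =>
    intro M e N hn hcop he h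
    obtain ⟨r, s, hrs, hrs0, hrse, hM⟩ := stepAB hcop he hkpos h
    obtain ⟨α, β, N', hab, hb0, hle, hN'⟩ := stepBA hq hD hk8 hres hrs hrs0 hM
    have hlt : β.natAbs < n := by
      rw [← hn]
      have h1 : 0 < β ^ 2 := by positivity
      have hs : 1 ≤ s ^ 2 := by
        have : s ≠ 0 := right_ne_zero_of_mul hrs0
        have : 0 < s ^ 2 := by positivity
        omega
      have h2 : β ^ 2 < e ^ 2 := by
        rw [← hrse, mul_pow]
        nlinarith [sq_nonneg r]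
      exact Int.natAbs_lt_iff_sq_lt.mpr h2
    exact ih β.natAbs hlt α β N' rfl hab hb0 hN'

end Fermat.Agent.Iso
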