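import Mathlib
import Fermat.Agent.Iso.Descent

set_option autoImplicit false

namespace Fermat.Agent.Iso

lemma sq_of_pos_coprime {a b w : ℤ} (ha : 0 < a) (hab : IsCoprime a b) (h : a * b = w ^ 2) :
    ∃ x, a = x ^ 2 := by
  obtain ⟨x, hx | hx⟩ := Int.sq_of_isCoprime hab h
  · exact ⟨x, hx⟩
  · exfalso
    nlinarith [sq_nonneg x]

/-- no solution of `X Z (X²+2kXZ+DZ²)=w²`. -/
lemma no_sol {k : ℤ} {q j : ℕ} (hq : q.Prime) (hD : (q : ℤ) ^ j = k ^ 2 + 4)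
    (hk8 : k % 8 = 3) (hkpos : 0 < k)
    (hres : ∀ s r : ℤ, (q : ℤ) ∣ s ^ 2 - 2 * k * r ^ 2 → (q : ℤ) ∣ s ∧ (q : ℤ) ∣ r)
    {X Z w : ℤ} (hX : 0 < X) (hZ : 0 < Z) (hcop : IsCoprime X Z) (hqX : ¬ (q : ℤ) ∣ X)
    (h : X * Z * (X ^ 2 + 2 * k * X * Z + (q : ℤ) ^ j * Z ^ 2) = w ^ 2) : False := by
  have hqp : Prime (q : ℤ) := Nat.prime_iff_prime_int.mp hq
  set Q := X ^ 2 + 2 * k * X * Z + (q : ℤ) ^ j * Z ^ 2 with hQ
  have hqjpos : 0 < (q : ℤ) ^ j := by rw [hD]; positivity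
  have hQpos : 0 < Q := by positivity
  have hXq : IsCoprime X ((q : ℤ) ^ j) :=
    ((Prime.coprime_iff_not_dvd hqp).mpr hqX).pow_left.symm
  have hXQ : IsCoprime X Q := by
    have h1 : IsCoprime X ((q : ℤ) ^ j * Z ^ 2) := hXq.mul_right hcop.pow_right
    have h2 : Q = (q : ℤ) ^ j * Z ^ 2 + X * (X + 2 * k * Z) := by rw [hQ]; ring
    rw [h2]
    exact h1.add_mul_left_right _
  have hZQ : IsCoprime Z Q := by
    have h1 : IsCoprime Z (X ^ 2) := hcop.symm.pow_right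
    have h2 : Q = X ^ 2 + Z * (2 * k * X + (q : ℤ) ^ j * Z) := by rw [hQ]; ring
    rw [h2]
    exact h1.add_mul_left_right _
  obtain ⟨M, hM⟩ := sq_of_pos_coprime (w := w) hX (hcop.mul_right hXQ) (by rw [← h]; ring)
  obtain ⟨e, he⟩ := sq_of_pos_coprime (w := w) hZ (hcop.symm.mul_right hZQ) (by rw [← h]; ring)
  obtain ⟨N, hN⟩ := sq_of_pos_coprime (w := w) hQpos (hXQ.symm.mul_right hZQ.symm)
    (by rw [← h]; ring)
  have he0 : e ≠ 0 := by rintro rfl; rw [he] at hZ; norm_num at hZ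
  have hcop' : IsCoprime M e := by
    rw [hM, he] at hcop
    exact (IsCoprime.pow_iff (by norm_num) (by norm_num)).mp hcop
  refine descent hq hD hk8 hkpos hres e.natAbs M e N rfl hcop' he0 ?_
  rw [← hN, hQ, hM, he, hD]
  ring

lemma hres13 : ∀ s r : ℤ, ((13 : ℕ) : ℤ) ∣ s ^ 2 - 2 * 3 * r ^ 2 →
    ((13 : ℕ) : ℤ) ∣ s ∧ ((13 : ℕ) : ℤ) ∣ r := by
  intro s r h
  have key : ∀ s' r' : ZMod 13, s' ^ 2 - 2 * 3 * r' ^ 2 = 0 → s' = 0 ∧ r' = 0 := by decide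
  have h1 := (ZMod.intCast_zmod_eq_zero_iff_dvd _ 13).mpr h
  push_cast at h1
  obtain ⟨h2, h3⟩ := key s r h1
  exact ⟨(ZMod.intCast_zmod_eq_zero_iff_dvd _ 13).mp h2, (ZMod.intCast_zmod_eq_zero_iff_dvd _ 13).mp h3⟩

lemma hres5 : ∀ s r : ℤ, ((5 : ℕ) : ℤ) ∣ s ^ 2 - 2 * 11 * r ^ 2 →
    ((5 : ℕ) : ℤ) ∣ s ∧ ((5 : ℕ) : ℤ) ∣ r := by
  intro s r h
  have key : ∀ s' r' : ZMod 5, s' ^ 2 - 2 * 11 * r' ^ 2 = 0 → s' = 0 ∧ r' = 0 := by decide
  have h1 := (ZMod.intCast_zmod_eq_zero_iff_dvd _ 5).mpr h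
  push_cast at h1
  obtain ⟨h2, h3⟩ := key s r h1
  exact ⟨(ZMod.intCast_zmod_eq_zero_iff_dvd _ 5).mp h2, (ZMod.intCast_zmod_eq_zero_iff_dvd _ 5).mp h3⟩

/-- clear denominators -/
lemma clear_denoms {a b : ℤ} {h y : ℚ} (hh : h ≠ 0) (hpos : ∀ h : ℚ, 0 < h ^ 2 + a * h + b)
    (hy : h * (h ^ 2 + a * h + b) = y ^ 2) :
    ∃ X Z w : ℤ, 0 < X ∧ 0 < Z ∧ IsCoprime X Z ∧
      X * Z * (X ^ 2 + a * X * Z + b * Z ^ 2) = w ^ 2 := by
  have hh' : 0 < h := by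
    have h1 := hpos h
    have h2 : 0 ≤ y ^ 2 := sq_nonneg y
    rw [← hy] at h2
    have := nonneg_of_mul_nonneg_left h2 h1
    exact lt_of_le_of_ne this hh.symm
  set X : ℤ := h.num with hX
  set Z : ℤ := (h.den : ℤ) with hZ
  have hXpos : 0 < X := Rat.num_pos.mpr hh'
  have hZpos : 0 < Z := by rw [hZ]; exact_mod_cast h.den_pos
  have hcop : IsCoprime X Z := by
    rw [Int.isCoprime_iff_gcd_eq_one]
    exact h.reduced
  have hZ0 : (Z : ℚ) ≠ 0 := by exact_mod_cast hZpos.ne'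
  have hhXZ : h = X / Z := by
    rw [hX, hZ]; exact_mod_cast (Rat.num_div_den h).symm
  have key : ((X * Z * (X ^ 2 + a * X * Z + b * Z ^ 2) : ℤ) : ℚ) = (y * Z ^ 2) ^ 2 := by
    push_cast
    rw [mul_pow, ← hy, hhXZ]
    field_simp
  have hsq : IsSquare ((X * Z * (X ^ 2 + a * X * Z + b * Z ^ 2) : ℤ) : ℚ) := ⟨y * Z ^ 2, by rw [key, sq]⟩
  rw [Rat.isSquare_intCast_iff] at hsq
  obtain ⟨w, hw⟩ := hsq
  exact ⟨X, Z, w, hXpos, hZpos, hcop, by rw [hw]; ring⟩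

theorem no_rat13 {h y : ℚ} (hh : h ≠ 0) : h * (h ^ 2 + 6 * h + 13) ≠ y ^ 2 := by
  intro hy
  obtain ⟨X, Z, w, hX, hZ, hcop, hw⟩ := clear_denoms (a := 6) (b := 13) hh
    (by intro h; push_cast; nlinarith [sq_nonneg (h + 3)]) (by push_cast; exact hy)
  have hp13 : Nat.Prime 13 := by norm_num
  have hqp : Prime (13 : ℤ) := by exact_mod_cast Nat.prime_iff_prime_int.mp hp13
  by_cases h13 : (13 : ℤ) ∣ X
  · obtain ⟨X', rfl⟩ := h13
    have h1 : (13 : ℤ) ^ 2 * (Z * X' * (Z ^ 2 + 2 * 3 * Z * X' + 13 * X' ^ 2)) = w ^ 2 := by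
      rw [← hw]; ring
    have h2 : (13 : ℤ) ∣ w := by
      apply hqp.dvd_of_dvd_pow (n := 2)
      rw [← h1]
      exact ⟨13 * (Z * X' * (Z ^ 2 + 2 * 3 * Z * X' + 13 * X' ^ 2)), by ring⟩
    obtain ⟨w', rfl⟩ := h2
    have h3 : Z * X' * (Z ^ 2 + 2 * 3 * Z * X' + 13 * X' ^ 2) = w' ^ 2 := by
      have : (13 : ℤ) ^ 2 * (Z * X' * (Z ^ 2 + 2 * 3 * Z * X' + 13 * X' ^ 2)) = 13 ^ 2 * w' ^ 2 := by
        rw [h1]; ring
      exact mul_left_cancel₀ (by norm_num) this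
    have hX' : 0 < X' := by omega
    have hcop' : IsCoprime X' Z := IsCoprime.of_mul_left_right hcop
    have h13Z : ¬ (13 : ℤ) ∣ Z := by
      intro hd
      exact hqp.not_isUnit (hcop.isUnit_of_dvd' (Dvd.intro X' rfl) hd)
    exact no_sol (k := 3) (q := 13) (j := 1) hp13 (by norm_num) (by norm_num) (by norm_num)
      hres13 hZ hX' hcop'.symm (by exact_mod_cast h13Z) (by rw [← h3]; push_cast; ring)
  · exact no_sol (k := 3) (q := 13) (j := 1) hp13 (by norm_num) (by norm_num) (by norm_num)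
      hres13 hX hZ hcop (by exact_mod_cast h13) (by rw [← hw]; push_cast; ring)

theorem no_rat5 {h y : ℚ} (hh : h ≠ 0) : h * (h ^ 2 + 22 * h + 125) ≠ y ^ 2 := by
  intro hy
  obtain ⟨X, Z, w, hX, hZ, hcop, hw⟩ := clear_denoms (a := 22) (b := 125) hh
    (by intro h; push_cast; nlinarith [sq_nonneg (h + 11)]) (by push_cast; exact hy)
  have hp5 : Nat.Prime 5 := by norm_num
  have hqp : Prime (5 : ℤ) := by exact_mod_cast Nat.prime_iff_prime_int.mp hp5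
  -- cancel 25 helper
  have cancel : ∀ T w : ℤ, 25 * T = w ^ 2 → ∃ w', T = w' ^ 2 := by
    intro T w h
    have h2 : (5 : ℤ) ∣ w := by
      apply hqp.dvd_of_dvd_pow (n := 2)
      rw [← h]
      exact ⟨5 * T, by ring⟩
    obtain ⟨w', rfl⟩ := h2
    exact ⟨w', by linarith⟩
  have h5Z : (5 : ℤ) ∣ X → ¬ (5 : ℤ) ∣ Z := by
    intro h1 h2
    exact hqp.not_isUnit (hcop.isUnit_of_dvd' h1 h2)
  by_cases h5 : (5 : ℤ) ∣ X
  · have h5Z' := h5Z h5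
    obtain ⟨X1, rfl⟩ := h5
    have hcop1 : IsCoprime X1 Z := IsCoprime.of_mul_left_right hcop
    obtain ⟨w1, hw1⟩ := cancel (X1 * Z * (5 * X1 ^ 2 + 22 * X1 * Z + 25 * Z ^ 2)) w (by
      rw [← hw]; ring)
    have h51 : (5 : ℤ) ∣ X1 := by
      have := (hres5 w1 (X1 * Z) ⟨(X1 * Z * (X1 ^ 2 + 5 * Z ^ 2)), by
        rw [← hw1]; push_cast; ring⟩).2
      have h2 : (5 : ℤ) ∣ X1 * Z := by exact_mod_cast this
      exact (hqp.dvd_or_dvd h2).resolve_right h5Z'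
    obtain ⟨X2, rfl⟩ := h51
    have hcop2 : IsCoprime X2 Z := IsCoprime.of_mul_left_right hcop1
    obtain ⟨w2, hw2⟩ := cancel (X2 * Z * (25 * X2 ^ 2 + 22 * X2 * Z + 5 * Z ^ 2)) w1 (by
      rw [← hw1]; ring)
    have h52 : (5 : ℤ) ∣ X2 := by
      have := (hres5 w2 (X2 * Z) ⟨(X2 * Z * (5 * X2 ^ 2 + Z ^ 2)), by
        rw [← hw2]; push_cast; ring⟩).2
      have h2 : (5 : ℤ) ∣ X2 * Z := by exact_mod_cast this
      exact (hqp.dvd_or_dvd h2).resolve_right h5Z'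
    obtain ⟨X3, rfl⟩ := h52
    have hcop3 : IsCoprime X3 Z := IsCoprime.of_mul_left_right hcop2
    obtain ⟨w3, hw3⟩ := cancel (Z * X3 * (Z ^ 2 + 22 * Z * X3 + 125 * X3 ^ 2)) w2 (by
      rw [← hw2]; ring)
    have hX3 : 0 < X3 := by omega
    exact no_sol (k := 11) (q := 5) (j := 3) hp5 (by norm_num) (by norm_num) (by norm_num)
      hres5 hZ hX3 hcop3.symm (by exact_mod_cast h5Z') (by rw [← hw3]; push_cast; ring)
  · exact no_sol (k := 11) (q := 5) (j := 3) hp5 (by norm_num) (by norm_num) (by norm_num)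
      hres5 hX hZ hcop (by exact_mod_cast h5) (by rw [← hw]; push_cast; ring)

end Fermat.Agent.Iso
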