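import Mathlib
import Fermat.Agent.Iso.Descent

set_option autoImplicit false

namespace Fermat.Agent.Iso

lemma prime_pow_dvd_of_coprime {q : ℤ} (hqp : Prime q) {j : ℕ} {A B T : ℤ} (hcop : IsCoprime A B)
    (hprod : A * B = q ^ j * T) : q ^ j ∣ A ∨ q ^ j ∣ B := by
  by_cases hqA : q ∣ A
  · left
    have hqB : ¬ q ∣ B := fun hqB => hqp.not_isUnit (hcop.isUnit_of_dvd' hqA hqB)
    have : IsCoprime (q ^ j) B := ((Prime.coprime_iff_not_dvd hqp).mpr hqB).pow_left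
    exact this.dvd_of_dvd_mul_right ⟨T, hprod⟩
  · right
    have : IsCoprime (q ^ j) A := ((Prime.coprime_iff_not_dvd hqp).mpr hqA).pow_left
    exact this.dvd_of_dvd_mul_left ⟨T, hprod⟩

lemma fourth_pow_both {u v e : ℤ} (hu : 0 < u) (hv : 0 < v) (huv : IsCoprime u v)
    (h : u * v = e ^ 4) : ∃ r s : ℤ, u = r ^ 4 ∧ v = s ^ 4 ∧ (r * s) ^ 2 = e ^ 2 ∧ IsCoprime r s := by
  obtain ⟨r, hr⟩ := fourth_pow_of_pos hu huv h
  obtain ⟨s, hs⟩ := fourth_pow_of_pos hv huv.symm (by rw [mul_comm]; exact h)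
  refine ⟨r, s, hr, hs, ?_, ?_⟩
  · have hab : (r * s) ^ 4 = e ^ 4 := by rw [mul_pow, ← hr, ← hs, h]
    have h1 : ((r * s) ^ 2) ^ 2 = (e ^ 2) ^ 2 := by
      rw [← pow_mul, ← pow_mul]; exact hab
    exact (pow_left_inj₀ (by positivity) (by positivity) two_ne_zero).mp h1
  · rw [hr, hs] at huv
    exact (IsCoprime.pow_iff (by norm_num) (by norm_num)).mp huv

lemma odd_sq_mod8 {n : ℤ} (hn : n % 2 = 1) : ∃ i, n ^ 2 = 8 * i + 1 := by
  obtain ⟨k, hk⟩ : ∃ k, n = 2 * k + 1 := ⟨n / 2, by omega⟩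
  have : (k * (k + 1)) % 2 = 0 := by
    rcases Int.even_mul_succ_self k with ⟨r, hr⟩
    omega
  refine ⟨k * (k + 1) / 2, ?_⟩
  have h2 : 2 * (k * (k + 1) / 2) = k * (k + 1) := by omega
  rw [hk]
  linarith [h2, (by ring : (2 * k + 1) ^ 2 = 4 * (k * (k + 1)) + 1)]

lemma sq_mod8 (n : ℤ) : n ^ 2 % 8 = 0 ∨ n ^ 2 % 8 = 1 ∨ n ^ 2 % 8 = 4 := by
  have : n % 8 = 0 ∨ n % 8 = 1 ∨ n % 8 = 2 ∨ n % 8 = 3 ∨ n % 8 = 4 ∨ n % 8 = 5 ∨ n % 8 = 6 ∨
    n % 8 = 7 := by omega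
  rcases this with h | h | h | h | h | h | h | h <;> simp [sq, Int.mul_emod, h]

lemma odd_four_mod16 {n : ℤ} (hn : n % 2 = 1) : n ^ 4 % 16 = 1 := by
  obtain ⟨i, hi⟩ := odd_sq_mod8 hn
  have : n ^ 4 = 16 * (4 * i ^ 2 + i) + 1 := by
    calc n ^ 4 = (n ^ 2) ^ 2 := by ring
      _ = _ := by rw [hi]; ring
  omega

/-- mod 7: `-1` is not a square -/
lemma seven_neg_sq {x y : ℤ} (h : (7 : ℤ) ∣ x ^ 2 + y ^ 2) : (7 : ℤ) ∣ x ∧ (7 : ℤ) ∣ y := by
  have key : ∀ s' r' : ZMod 7, s' ^ 2 + r' ^ 2 = 0 → s' = 0 ∧ r' = 0 := by decide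
  have h1 := (ZMod.intCast_zmod_eq_zero_iff_dvd (x ^ 2 + y ^ 2) 7).mpr (by exact_mod_cast h)
  push_cast at h1
  obtain ⟨h2, h3⟩ := key x y h1
  exact ⟨by exact_mod_cast (ZMod.intCast_zmod_eq_zero_iff_dvd _ 7).mp h2,
    by exact_mod_cast (ZMod.intCast_zmod_eq_zero_iff_dvd _ 7).mp h3⟩

lemma not_both_odd {n m V : ℤ} (h : V ^ 2 = n ^ 4 + 294 * n ^ 2 * m ^ 2 - 343 * m ^ 4) :
    ¬ (n % 2 = 1 ∧ m % 2 = 1) := by
  rintro ⟨hn, hm⟩
  obtain ⟨i, hi⟩ := odd_sq_mod8 hn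
  obtain ⟨j, hj⟩ := odd_sq_mod8 hm
  have h1 : V ^ 2 = 64 * (i ^ 2 + 294 * i * j - 343 * j ^ 2 + 37 * i - 49 * j) - 48 := by
    rw [h, (by ring : n ^ 4 = (n ^ 2) ^ 2), (by ring : m ^ 4 = (m ^ 2) ^ 2), hi, hj]; ring
  obtain ⟨K, hK⟩ : ∃ K, i ^ 2 + 294 * i * j - 343 * j ^ 2 + 37 * i - 49 * j = 2 * K := by
    obtain ⟨r, hr⟩ := Int.even_mul_succ_self i
    obtain ⟨s, hs⟩ := Int.even_mul_succ_self j
    refine ⟨r + 147 * i * j - 343 * s + 18 * i + 147 * j, ?_⟩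
    linear_combination hr - 343 * hs
  rw [hK] at h1
  have hV2 : V % 2 = 0 := by
    rcases Int.emod_two_eq_zero_or_one V with h2 | h2
    · exact h2
    · obtain ⟨l, hl⟩ := odd_sq_mod8 h2
      omega
  obtain ⟨V1, rfl⟩ : ∃ V1, V = 2 * V1 := ⟨V / 2, by omega⟩
  have h2 : V1 ^ 2 = 32 * K - 12 := by linarith [h1, (by ring : (2 * V1) ^ 2 = 4 * V1 ^ 2)]
  have hV12 : V1 % 2 = 0 := by
    rcases Int.emod_two_eq_zero_or_one V1 with h3 | h3
    · exact h3
    · obtain ⟨l, hl⟩ := odd_sq_mod8 h3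
      omega
  obtain ⟨V2, rfl⟩ : ∃ V2, V1 = 2 * V2 := ⟨V1 / 2, by omega⟩
  have h3 : V2 ^ 2 = 8 * K - 3 := by linarith [h2, (by ring : (2 * V2) ^ 2 = 4 * V2 ^ 2)]
  have := sq_mod8 V2
  omega

lemma prime7 : Prime (7 : ℤ) := by exact_mod_cast Nat.prime_iff_prime_int.mp (by norm_num : Nat.Prime 7)

/-- the case `j=0`. -/
lemma case0 {n m α β : ℤ} (hnm : IsCoprime n m) (h7n : ¬ (7 : ℤ) ∣ n) (hαβ : IsCoprime α β)
    (hβ0 : β ≠ 0)
    (hm : (α * β) ^ 2 = m ^ 2)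
    (h : n ^ 2 = 16 * α ^ 4 + 343 * β ^ 4 - 147 * (α ^ 2 * β ^ 2)) : False := by
  have hβodd : β % 2 = 1 := by
    rcases Int.emod_two_eq_zero_or_one β with h2 | h2
    · exfalso
      obtain ⟨b, rfl⟩ : ∃ b, β = 2 * b := ⟨β / 2, by omega⟩
      have h2n : (2 : ℤ) ∣ n := by
        apply Int.prime_two.dvd_of_dvd_pow (n := 2)
        rw [h]
        exact ⟨8 * α ^ 4 + 343 * 8 * b ^ 4 - 147 * 2 * (α ^ 2 * b ^ 2), by ring⟩
      have h2m : (2 : ℤ) ∣ m := by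
        apply Int.prime_two.dvd_of_dvd_pow (n := 2)
        rw [← hm]
        exact ⟨2 * (α * b) ^ 2, by ring⟩
      exact Int.prime_two.not_isUnit (hnm.isUnit_of_dvd' h2n h2m)
    · exact h2
  set C := 8 * n - (32 * α ^ 2 - 147 * β ^ 2) with hC
  set D := 8 * n + (32 * α ^ 2 - 147 * β ^ 2) with hD
  have hCD : C * D = 343 * β ^ 4 := by
    have : C * D = 64 * n ^ 2 - (32 * α ^ 2 - 147 * β ^ 2) ^ 2 := by rw [hC, hD]; ring
    rw [this, h]; ring
  have hsum : C + D = 16 * n := by rw [hC, hD]; ring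
  have hcop : IsCoprime C D := by
    rw [Int.isCoprime_iff_gcd_eq_one]
    by_contra hg
    obtain ⟨l, hl, hlA, hlB⟩ := Nat.Prime.not_coprime_iff_dvd.mp hg
    have hlC : (l : ℤ) ∣ C := Int.natCast_dvd.mpr hlA
    have hlD : (l : ℤ) ∣ D := Int.natCast_dvd.mpr hlB
    have hlp : Prime (l : ℤ) := Nat.prime_iff_prime_int.mp hl
    have hprod : (l : ℤ) ∣ 7 ^ 3 * β ^ 4 := by
      have : (7 : ℤ) ^ 3 * β ^ 4 = C * D := by rw [hCD]; norm_num
      rw [this]; exact hlC.mul_right D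
    have hl2 : (l : ℤ) ≠ 2 := by
      intro h2
      have h3 : (2 : ℤ) ∣ 7 ^ 3 * β ^ 4 := by rw [← h2]; exact hprod
      rcases Int.prime_two.dvd_or_dvd h3 with h4 | h4
      · norm_num at h4
      · have := Int.prime_two.dvd_of_dvd_pow h4
        omega
    have hl2' : ¬ (l : ℤ) ∣ 2 := by
      intro h2
      have : l ∣ 2 := by exact_mod_cast h2
      have := (Nat.prime_dvd_prime_iff_eq hl Nat.prime_two).mp this
      exact hl2 (by exact_mod_cast this)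
    have hln : (l : ℤ) ∣ n := by
      have h1 : (l : ℤ) ∣ 2 ^ 4 * n := by
        have : (2 : ℤ) ^ 4 * n = C + D := by rw [hsum]; norm_num
        rw [this]; exact dvd_add hlC hlD
      rcases hlp.dvd_or_dvd h1 with h4 | h4
      · exact absurd (hlp.dvd_of_dvd_pow h4) hl2'
      · exact h4
    rcases hlp.dvd_or_dvd hprod with h4 | h4
    · have h5 := hlp.dvd_of_dvd_pow h4
      have : l ∣ 7 := by exact_mod_cast h5
      have h6 := (Nat.prime_dvd_prime_iff_eq hl (by norm_num)).mp this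
      apply h7n
      rw [h6] at hln
      exact_mod_cast hln
    · have hlβ := hlp.dvd_of_dvd_pow h4
      have hlm : (l : ℤ) ∣ m := by
        apply hlp.dvd_of_dvd_pow (n := 2)
        rw [← hm]
        exact (Dvd.dvd.mul_left hlβ α).pow two_ne_zero
      exact hlp.not_isUnit (hnm.isUnit_of_dvd' hln hlm)
  -- finishing
  have fin : ∀ C D : ℤ, IsCoprime C D → C * D = 343 * β ^ 4 → C + D = 16 * n → (7 : ℤ) ^ 3 ∣ D →
      False := by
    intro C D hcop hCD hsum hdvd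
    obtain ⟨D', rfl⟩ := hdvd
    have h1 : C * D' = β ^ 4 := by
      have : (343 : ℤ) * (C * D') = 343 * β ^ 4 := by rw [← hCD]; ring
      exact mul_left_cancel₀ (by norm_num) this
    have hcop' : IsCoprime C D' := IsCoprime.of_mul_right_right hcop
    have hβ4 : 0 < β ^ 4 := by positivity
    have hodd : ∀ γ δ : ℤ, (γ * δ) ^ 2 = β ^ 2 → γ % 2 = 1 ∧ δ % 2 = 1 := by
      intro γ δ hgd
      have hb2 : (γ * δ) % 2 = 1 := by
        rcases Int.emod_two_eq_zero_or_one (γ * δ) with h2 | h2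
        · exfalso
          have h3 : (2 : ℤ) ∣ (γ * δ) ^ 2 := (Dvd.dvd.pow (by omega) two_ne_zero)
          rw [hgd] at h3
          have := Int.prime_two.dvd_of_dvd_pow h3
          omega
        · exact h2
      rw [Int.mul_emod] at hb2
      rcases Int.emod_two_eq_zero_or_one γ with h2 | h2 <;>
      rcases Int.emod_two_eq_zero_or_one δ with h3 | h3 <;> simp [h2, h3] at hb2 ⊢
    rcases lt_trichotomy C 0 with hneg | hz | hpos
    · have hD'neg : D' < 0 := by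
        by_contra hcon
        push Not at hcon
        nlinarith
      obtain ⟨γ, δ, hγ, hδ, hgd, -⟩ := fourth_pow_both (u := -C) (v := -D') (e := β)
        (by linarith) (by linarith) hcop'.neg_neg (by rw [← h1]; ring)
      obtain ⟨h2, h3⟩ := hodd γ δ hgd
      have h4 := odd_four_mod16 h2
      have h5 := odd_four_mod16 h3
      have h6 : (7 : ℤ) ^ 3 = 343 := by norm_num
      rw [h6] at hsum
      omega
    · rw [hz, zero_mul] at h1
      exact hβ4.ne h1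
    · have hD'pos : 0 < D' := by
        by_contra hcon
        push Not at hcon
        nlinarith
      obtain ⟨γ, δ, hγ, hδ, hgd, -⟩ := fourth_pow_both (u := C) (v := D') (e := β)
        (by linarith) (by linarith) hcop' (by rw [← h1])
      obtain ⟨h2, h3⟩ := hodd γ δ hgd
      have h4 := odd_four_mod16 h2
      have h5 := odd_four_mod16 h3
      have h6 : (7 : ℤ) ^ 3 = 343 := by norm_num
      rw [h6] at hsum
      omega
  rcases prime_pow_dvd_of_coprime prime7 (j := 3) (T := β ^ 4) hcop (by rw [hCD]; norm_num) with h1 | h1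
  · exact fin D C hcop.symm (by rw [mul_comm]; exact hCD) (by rw [← hsum]; ring) h1
  · exact fin C D hcop hCD hsum h1

/-- the case `j=1`. -/
lemma case1 {n m α β : ℤ} (hnm : IsCoprime n m) (h7n : ¬ (7 : ℤ) ∣ n) (hαβ : IsCoprime α β)
    (hα0 : α ≠ 0) (hβ0 : β ≠ 0)
    (hm : (α * β) ^ 2 = m ^ 2)
    (h : n ^ 2 = 5488 * α ^ 4 + β ^ 4 - 147 * (α ^ 2 * β ^ 2)) :
    ∃ γ δ : ℤ, IsCoprime γ δ ∧ δ ≠ 0 ∧ 4 * δ ^ 2 ≤ m ^ 2 ∧
      β ^ 2 = γ ^ 4 + 294 * γ ^ 2 * δ ^ 2 - 343 * δ ^ 4 := by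
  have hαeven : α % 2 = 0 := by
    rcases Int.emod_two_eq_zero_or_one α with h2 | h2
    · exact h2
    · exfalso
      rcases Int.emod_two_eq_zero_or_one β with h3 | h3
      · obtain ⟨b, rfl⟩ : ∃ b, β = 2 * b := ⟨β / 2, by omega⟩
        have h2n : (2 : ℤ) ∣ n := by
          apply Int.prime_two.dvd_of_dvd_pow (n := 2)
          rw [h]
          exact ⟨2744 * α ^ 4 + 8 * b ^ 4 - 147 * 2 * (α ^ 2 * b ^ 2), by ring⟩
        have h2m : (2 : ℤ) ∣ m := by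
          apply Int.prime_two.dvd_of_dvd_pow (n := 2)
          rw [← hm]
          exact ⟨2 * (α * b) ^ 2, by ring⟩
        exact Int.prime_two.not_isUnit (hnm.isUnit_of_dvd' h2n h2m)
      · obtain ⟨i, hi⟩ := odd_sq_mod8 h2
        obtain ⟨j, hj⟩ := odd_sq_mod8 h3
        have h4 : n ^ 2 = 8 * (686 * α ^ 4 + 8 * j ^ 2 + 2 * j - 147 * (8 * i * j + i + j) - 19) + 6 := by
          rw [h, (by ring : β ^ 4 = (β ^ 2) ^ 2), hi, hj]; ring
        have := sq_mod8 n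
        omega
  obtain ⟨a, rfl⟩ : ∃ a, α = 2 * a := ⟨α / 2, by omega⟩
  have ha0 : a ≠ 0 := by rintro rfl; exact hα0 (by ring)
  have hβodd : β % 2 = 1 := by
    rcases Int.emod_two_eq_zero_or_one β with h3 | h3
    · exfalso
      exact Int.prime_two.not_isUnit (hαβ.isUnit_of_dvd' ⟨a, rfl⟩ (by omega))
    · exact h3
  wlog hn : 0 ≤ n generalizing n
  · exact this (n := -n) hnm.neg_left (by rwa [Int.dvd_neg]) (by rw [← h]; ring) (by omega)
  have hnodd : n % 2 = 1 := by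
    rcases Int.emod_two_eq_zero_or_one n with h3 | h3
    · exfalso
      have h2m : (2 : ℤ) ∣ m := by
        apply Int.prime_two.dvd_of_dvd_pow (n := 2)
        rw [← hm]
        exact ⟨2 * (a * β) ^ 2, by ring⟩
      exact Int.prime_two.not_isUnit (hnm.isUnit_of_dvd' (by omega) h2m)
    · exact h3
  set T := β ^ 2 - 294 * a ^ 2 with hT
  have hTodd : T % 2 = 1 := by
    obtain ⟨i, hi⟩ := odd_sq_mod8 hβodd
    omega
  obtain ⟨C, hC⟩ : ∃ C, n - T = 2 * C := ⟨(n - T) / 2, by omega⟩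
  set D := C + T with hD
  have hsum : C + D = n := by rw [hD]; linarith
  have hCD : C * D = 343 * a ^ 4 := by
    have h1 : n ^ 2 - T ^ 2 = 4 * (343 * a ^ 4) := by rw [h, hT]; ring
    have h2 : n ^ 2 - T ^ 2 = 4 * (C * D) := by
      have : n = 2 * C + T := by linarith
      rw [this, hD]; ring
    linarith
  have ha4 : 0 < a ^ 4 := by positivity
  have hmdvd : ∀ l : ℤ, l ∣ a → l ∣ m ^ 2 := by
    intro l hl
    rw [← hm]
    exact ((hl.mul_left 2).mul_right β).pow two_ne_zero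
  have hcop : IsCoprime C D := by
    rw [Int.isCoprime_iff_gcd_eq_one]
    by_contra hg
    obtain ⟨l, hl, hlA, hlB⟩ := Nat.Prime.not_coprime_iff_dvd.mp hg
    have hlC : (l : ℤ) ∣ C := Int.natCast_dvd.mpr hlA
    have hlD : (l : ℤ) ∣ D := Int.natCast_dvd.mpr hlB
    have hlp : Prime (l : ℤ) := Nat.prime_iff_prime_int.mp hl
    have hprod : (l : ℤ) ∣ 7 ^ 3 * a ^ 4 := by
      have : (7 : ℤ) ^ 3 * a ^ 4 = C * D := by rw [hCD]; norm_num
      rw [this]; exact hlC.mul_right D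
    have hln : (l : ℤ) ∣ n := by rw [← hsum]; exact dvd_add hlC hlD
    rcases hlp.dvd_or_dvd hprod with h4 | h4
    · have h5 := hlp.dvd_of_dvd_pow h4
      have : l ∣ 7 := by exact_mod_cast h5
      have h6 := (Nat.prime_dvd_prime_iff_eq hl (by norm_num)).mp this
      apply h7n
      rw [h6] at hln
      exact_mod_cast hln
    · have hla := hlp.dvd_of_dvd_pow h4
      have hlm : (l : ℤ) ∣ m := hlp.dvd_of_dvd_pow (hmdvd _ hla)
      exact hlp.not_isUnit (hnm.isUnit_of_dvd' hln hlm)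
  -- bound helper
  have hbound : ∀ γ δ : ℤ, (γ * δ) ^ 2 = a ^ 2 → δ ≠ 0 ∧ 4 * δ ^ 2 ≤ m ^ 2 := by
    intro γ δ hgd
    have hγδ : γ * δ ≠ 0 := by
      intro h0
      rw [h0] at hgd
      have : 0 < a ^ 2 := by positivity
      omega
    have hγ0 : γ ≠ 0 := left_ne_zero_of_mul hγδ
    have hδ0 : δ ≠ 0 := right_ne_zero_of_mul hγδ
    refine ⟨hδ0, ?_⟩
    have h1 : m ^ 2 = 4 * (γ ^ 2 * (δ ^ 2 * β ^ 2)) := by
      rw [← hm, mul_pow, mul_pow, ← hgd]; ring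
    have hγ2 : 0 < γ ^ 2 := by positivity
    have hβ2 : 0 < β ^ 2 := by positivity
    have hδ2 : 0 < δ ^ 2 := by positivity
    have h2 : δ ^ 2 ≤ δ ^ 2 * β ^ 2 := by nlinarith
    have h3 : δ ^ 2 * β ^ 2 ≤ γ ^ 2 * (δ ^ 2 * β ^ 2) := by nlinarith [mul_pos hδ2 hβ2]
    rw [h1]; linarith
  rcases prime_pow_dvd_of_coprime prime7 (j := 3) (T := a ^ 4) hcop (by rw [hCD]; norm_num) with h1 | h1
  · -- 343 | C
    obtain ⟨C', rfl⟩ := h1
    have h2 : C' * D = a ^ 4 := by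
      have : (343 : ℤ) * (C' * D) = 343 * a ^ 4 := by rw [← hCD]; ring
      exact mul_left_cancel₀ (by norm_num) this
    have hcop' : IsCoprime C' D := IsCoprime.of_mul_left_right hcop
    have hpos : 0 < C' ∧ 0 < D := by
      have h4 : 0 < C' * D := by rw [h2]; exact ha4
      rcases pos_and_pos_or_neg_and_neg_of_mul_pos h4 with h5 | h5
      · exact h5
      · exfalso; norm_num at hsum; linarith [h5.1, h5.2]
    obtain ⟨δ, γ, hδ, hγ, hgd, hc⟩ := fourth_pow_both hpos.1 hpos.2 hcop' h2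
    obtain ⟨hb1, hb2⟩ := hbound γ δ (by rw [mul_comm γ δ]; exact hgd)
    refine ⟨γ, δ, hc.symm, hb1, hb2, ?_⟩
    have h5 : β ^ 2 = T + 294 * a ^ 2 := by rw [hT]; ring
    have h6 : T = D - 7 ^ 3 * C' := by rw [hD]; ring
    rw [h5, h6, hδ, hγ, ← hgd]; ring
  · -- 343 | D : impossible
    exfalso
    obtain ⟨D', hD'⟩ := h1
    rw [hD'] at hCD hcop hsum
    have h2 : C * D' = a ^ 4 := by
      have : (343 : ℤ) * (C * D') = 343 * a ^ 4 := by rw [← hCD]; ring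
      exact mul_left_cancel₀ (by norm_num) this
    have hcop' : IsCoprime C D' := IsCoprime.of_mul_right_right hcop
    have hpos : 0 < C ∧ 0 < D' := by
      have h4 : 0 < C * D' := by rw [h2]; exact ha4
      rcases pos_and_pos_or_neg_and_neg_of_mul_pos h4 with h5 | h5
      · exact h5
      · exfalso; norm_num at hsum; linarith [h5.1, h5.2]
    obtain ⟨γ, δ, hγ, hδ, hgd, hc⟩ := fourth_pow_both hpos.1 hpos.2 hcop' h2
    have h5 : β ^ 2 = T + 294 * a ^ 2 := by rw [hT]; ring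
    have h6 : T = 7 ^ 3 * D' - C := by rw [← hD', hD]; ring
    have h7 : β ^ 2 + (γ ^ 2) ^ 2 = 7 * (49 * δ ^ 4 + 42 * (γ * δ) ^ 2) := by
      rw [h5, h6, hδ, hγ, ← hgd]; ring
    obtain ⟨h8, h9⟩ := seven_neg_sq ⟨_, h7⟩
    have h10 : (7 : ℤ) ∣ γ := prime7.dvd_of_dvd_pow h9
    have h11 : (7 : ℤ) ∣ a := by
      apply prime7.dvd_of_dvd_pow (n := 2)
      rw [← hgd]
      exact (h10.mul_right δ).pow two_ne_zero
    exact prime7.not_isUnit (hαβ.isUnit_of_dvd' (h11.mul_left 2) h8)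

theorem descent7 : ∀ (N : ℕ) (n m V : ℤ), m.natAbs = N → IsCoprime n m → m ≠ 0 →
    V ^ 2 ≠ n ^ 4 + 294 * n ^ 2 * m ^ 2 - 343 * m ^ 4 := by
  intro N
  induction N using Nat.strong_induction_on with
  | _ N ih =>
  intro n m V hmN hnm hm0 h
  have h7n : ¬ (7 : ℤ) ∣ n := by
    rintro ⟨n', rfl⟩
    have h7m : ¬ (7 : ℤ) ∣ m := fun h7m =>
      prime7.not_isUnit (hnm.isUnit_of_dvd' ⟨n', rfl⟩ h7m)
    have h1 : V ^ 2 = 7 ^ 3 * (7 * n' ^ 4 + 42 * n' ^ 2 * m ^ 2 - m ^ 4) := by rw [h]; ring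
    have h7V : (7 : ℤ) ∣ V := by
      apply prime7.dvd_of_dvd_pow (n := 2)
      rw [h1]; exact ⟨7 ^ 2 * (7 * n' ^ 4 + 42 * n' ^ 2 * m ^ 2 - m ^ 4), by ring⟩
    obtain ⟨V1, rfl⟩ := h7V
    have h2 : V1 ^ 2 = 7 * (7 * n' ^ 4 + 42 * n' ^ 2 * m ^ 2 - m ^ 4) := by linarith
    have h7V1 : (7 : ℤ) ∣ V1 := by
      apply prime7.dvd_of_dvd_pow (n := 2)
      rw [h2]; exact ⟨(7 * n' ^ 4 + 42 * n' ^ 2 * m ^ 2 - m ^ 4), by ring⟩
    obtain ⟨V2, rfl⟩ := h7V1
    have h3 : m ^ 4 = 7 * (n' ^ 4 + 6 * n' ^ 2 * m ^ 2 - V2 ^ 2) := by linarith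
    exact h7m (prime7.dvd_of_dvd_pow ⟨_, h3⟩)
  have hno := not_both_odd h
  set S := n ^ 2 + 147 * m ^ 2 with hS
  have hSV : S ^ 2 - V ^ 2 = 4 * (5488 * m ^ 4) := by rw [h, hS]; ring
  have hpar : Even (S - V) := by
    have h1 : Even (S ^ 2 - V ^ 2) := ⟨2 * (5488 * m ^ 4), by rw [hSV]; ring⟩
    have h2 : S ^ 2 - V ^ 2 = (S - V) * (S + V) := by ring
    rw [h2, Int.even_mul] at h1
    rcases h1 with h1 | h1
    · exact h1
    · have : S - V = (S + V) - 2 * V := by ring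
      rw [this]
      exact h1.sub (even_two_mul V)
  obtain ⟨A, hA⟩ := hpar
  set B := A + V with hB
  have hSAB : S = A + B := by rw [hB]; linarith
  have hAB : A * B = 5488 * m ^ 4 := by
    have : S ^ 2 - V ^ 2 = 4 * (A * B) := by
      have h1 : V = B - A := by rw [hB]; ring
      rw [hSAB, h1]; ring
    linarith
  have hm2 : 0 < m ^ 2 := by positivity
  have hm4 : 0 < m ^ 4 := by positivity
  have hSpos : 0 < S := by positivity
  have hcop : IsCoprime A B := by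
    rw [Int.isCoprime_iff_gcd_eq_one]
    by_contra hg
    obtain ⟨l, hl, hlA, hlB⟩ := Nat.Prime.not_coprime_iff_dvd.mp hg
    have hlA' : (l : ℤ) ∣ A := Int.natCast_dvd.mpr hlA
    have hlB' : (l : ℤ) ∣ B := Int.natCast_dvd.mpr hlB
    have hlp : Prime (l : ℤ) := Nat.prime_iff_prime_int.mp hl
    have hlS : (l : ℤ) ∣ S := by rw [hSAB]; exact dvd_add hlA' hlB'
    have hprod : (l : ℤ) ∣ 2 ^ 4 * (7 ^ 3 * m ^ 4) := by
      have : (2 : ℤ) ^ 4 * (7 ^ 3 * m ^ 4) = A * B := by rw [hAB]; ring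
      rw [this]; exact hlA'.mul_right B
    have hml : ¬ (l : ℤ) ∣ m := by
      intro hlm
      have : (l : ℤ) ∣ n := by
        apply hlp.dvd_of_dvd_pow (n := 2)
        have h1 : n ^ 2 = S - 147 * m ^ 2 := by rw [hS]; ring
        rw [h1]
        exact dvd_sub hlS ((hlm.pow two_ne_zero).mul_left _)
      exact hlp.not_isUnit (hnm.isUnit_of_dvd' this hlm)
    rcases hlp.dvd_or_dvd hprod with h4 | h4
    · have h5 := hlp.dvd_of_dvd_pow h4
      have : l ∣ 2 := by exact_mod_cast h5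
      have h6 := (Nat.prime_dvd_prime_iff_eq hl (by norm_num)).mp this
      subst h6
      have hmodd : m % 2 = 1 := by
        rcases Int.emod_two_eq_zero_or_one m with h7 | h7
        · exact absurd (by push_cast; omega) hml
        · exact h7
      have hnodd : n % 2 = 1 := by
        rcases Int.emod_two_eq_zero_or_one n with h7 | h7
        · exfalso
          obtain ⟨i, hi⟩ := odd_sq_mod8 hmodd
          obtain ⟨n', hn'⟩ : ∃ n', n = 2 * n' := ⟨n / 2, by omega⟩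
          have h8 : S = 2 * (2 * n' ^ 2 + 147 * 4 * i + 73) + 1 := by rw [hS, hn', hi]; ring
          push_cast at hlS
          omega
        · exact h7
      exact hno ⟨hnodd, hmodd⟩
    · rcases hlp.dvd_or_dvd h4 with h5 | h5
      · have h6 := hlp.dvd_of_dvd_pow h5
        have : l ∣ 7 := by exact_mod_cast h6
        have h7 := (Nat.prime_dvd_prime_iff_eq hl (by norm_num)).mp this
        subst h7
        apply h7n
        apply prime7.dvd_of_dvd_pow (n := 2)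
        have h1 : n ^ 2 = S - 147 * m ^ 2 := by rw [hS]; ring
        rw [h1]
        exact dvd_sub (by exact_mod_cast hlS) ⟨21 * m ^ 2, by ring⟩
      · exact hml (hlp.dvd_of_dvd_pow h5)
  -- general finishing, with 16 ∣ A
  have fin : ∀ A B : ℤ, IsCoprime A B → A * B = 5488 * m ^ 4 → S = A + B → (2 : ℤ) ^ 4 ∣ A →
      False := by
    intro A B hcop hAB hSAB hdvd
    have hpos : 0 < A ∧ 0 < B := by
      have h4 : 0 < A * B := by rw [hAB]; positivity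
      rcases pos_and_pos_or_neg_and_neg_of_mul_pos h4 with h5 | h5
      · exact h5
      · exfalso; linarith [h5.1, h5.2]
    obtain ⟨A1, rfl⟩ := hdvd
    have hA1 : 0 < A1 := by nlinarith [hpos.1]
    have hprod1 : A1 * B = 7 ^ 3 * m ^ 4 := by
      have : (16 : ℤ) * (A1 * B) = 16 * (7 ^ 3 * m ^ 4) := by
        have h1 : (2 : ℤ) ^ 4 * A1 * B = 5488 * m ^ 4 := hAB
        linarith [h1, (by ring : (2 : ℤ) ^ 4 * A1 * B = 16 * (A1 * B)),
          (by ring : (16 : ℤ) * (7 ^ 3 * m ^ 4) = 5488 * m ^ 4)]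
      exact mul_left_cancel₀ (by norm_num) this
    have hcop1 : IsCoprime A1 B := IsCoprime.of_mul_left_right hcop
    rcases prime_pow_dvd_of_coprime prime7 (j := 3) (T := m ^ 4) hcop1 hprod1 with h1 | h1
    · obtain ⟨A2, rfl⟩ := h1
      have hA2 : 0 < A2 := by nlinarith
      have h2 : A2 * B = m ^ 4 := by
        have : (343 : ℤ) * (A2 * B) = 343 * m ^ 4 := by linarith
        exact mul_left_cancel₀ (by norm_num) this
      obtain ⟨α, β, hα, hβ, hab, hc⟩ := fourth_pow_both hA2 hpos.2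
        (IsCoprime.of_mul_left_right hcop1) h2
      have hαβ0 : α * β ≠ 0 := by
        intro h0
        rw [h0] at hab
        nlinarith
      obtain ⟨γ, δ, h3, h4, h5, h6⟩ := case1 hnm h7n hc (left_ne_zero_of_mul hαβ0)
        (right_ne_zero_of_mul hαβ0) hab (by
          have : n ^ 2 = S - 147 * m ^ 2 := by rw [hS]; ring
          rw [this, hSAB, hα, hβ, ← hab]; ring)
      have hlt : δ.natAbs < N := by
        rw [← hmN]
        have : 0 < δ ^ 2 := by positivity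
        exact Int.natAbs_lt_iff_sq_lt.mpr (by linarith)
      exact ih δ.natAbs hlt γ δ β rfl h3 h4 h6
    · obtain ⟨B1, rfl⟩ := h1
      have hB1 : 0 < B1 := by nlinarith [hpos.2]
      have h2 : A1 * B1 = m ^ 4 := by
        have : (343 : ℤ) * (A1 * B1) = 343 * m ^ 4 := by linarith
        exact mul_left_cancel₀ (by norm_num) this
      obtain ⟨α, β, hα, hβ, hab, hc⟩ := fourth_pow_both hA1 hB1
        (IsCoprime.of_mul_right_right hcop1) h2
      have hαβ0 : α * β ≠ 0 := by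
        intro h0
        rw [h0] at hab
        nlinarith
      exact case0 hnm h7n hc (right_ne_zero_of_mul hαβ0) hab (by
          have : n ^ 2 = S - 147 * m ^ 2 := by rw [hS]; ring
          rw [this, hSAB, hα, hβ, ← hab]; ring)
  rcases prime_pow_dvd_of_coprime Int.prime_two (j := 4) (T := 7 ^ 3 * m ^ 4) hcop
    (by rw [hAB]; ring) with h1 | h1
  · exact fin A B hcop hAB hSAB h1
  · exact fin B A hcop.symm (by rw [mul_comm]; exact hAB) (by rw [hSAB]; ring) h1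

theorem descent7' {n m V : ℤ} (hm : m ≠ 0) :
    V ^ 2 ≠ n ^ 4 + 294 * n ^ 2 * m ^ 2 - 343 * m ^ 4 := by
  intro h
  obtain ⟨g, n', m', hg, hcop, rfl, rfl⟩ :
      ∃ g n' m' : ℤ, g ≠ 0 ∧ IsCoprime n' m' ∧ n = g * n' ∧ m = g * m' := by
    have hg : (0 : ℕ) < Int.gcd n m := Int.gcd_pos_of_ne_zero_right _ hm
    obtain ⟨n', m', hc, h1, h2⟩ := Int.exists_gcd_one hg
    exact ⟨Int.gcd n m, n', m', by exact_mod_cast hg.ne', Int.isCoprime_iff_gcd_eq_one.mpr hc,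
      by rw [mul_comm]; exact h1, by rw [mul_comm]; exact h2⟩
  have hm' : m' ≠ 0 := right_ne_zero_of_mul hm
  have hgV : g ^ 2 ∣ V := by
    rw [← Int.pow_dvd_pow_iff two_ne_zero, h]
    exact ⟨n' ^ 4 + 294 * n' ^ 2 * m' ^ 2 - 343 * m' ^ 4, by ring⟩
  obtain ⟨V', rfl⟩ := hgV
  refine descent7 m'.natAbs n' m' V' rfl hcop hm' ?_
  have hg4 : g ^ 4 ≠ 0 := pow_ne_zero _ hg
  have : g ^ 4 * V' ^ 2 = g ^ 4 * (n' ^ 4 + 294 * n' ^ 2 * m' ^ 2 - 343 * m' ^ 4) := by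
    linarith [h, (by ring : (g ^ 2 * V') ^ 2 = g ^ 4 * V' ^ 2),
     (by ring : (g * n') ^ 4 + 294 * (g * n') ^ 2 * (g * m') ^ 2 - 343 * (g * m') ^ 4 =
        g ^ 4 * (n' ^ 4 + 294 * n' ^ 2 * m' ^ 2 - 343 * m' ^ 4))]
  exact mul_left_cancel₀ hg4 this

/-- FLT for exponent 7. -/
theorem flt7 {x y z : ℤ} (hx : x ≠ 0) (hy : y ≠ 0) (hz : z ≠ 0) : x ^ 7 + y ^ 7 + z ^ 7 ≠ 0 := by
  intro h
  set S := x + y + z with hS
  set e2 := x * y + y * z + z * x with he2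
  set e3 := x * y * z with he3
  have hS0 : S ≠ 0 := by
    intro h0
    have hz' : z = - x - y := by linarith
    have h1 : 7 * (x * y * z) * (x ^ 2 + x * y + y ^ 2) ^ 2 = 0 := by
      rw [← h, hz']; ring
    have h2 : x ^ 2 + x * y + y ^ 2 ≠ 0 := by
      have : 0 < x ^ 2 := by positivity
      have : 0 < y ^ 2 := by positivity
      nlinarith [sq_nonneg (x + y)]
    have h3 : (7 * (x * y * z)) * (x ^ 2 + x * y + y ^ 2) ^ 2 ≠ 0 :=
      mul_ne_zero (mul_ne_zero (by norm_num) (mul_ne_zero (mul_ne_zero hx hy) hz)) (pow_ne_zero _ h2)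
    exact h3 h1
  set N := x ^ 2 + y ^ 2 + z ^ 2 with hN
  set U := 4 * (14 * S * e3 + 7 * (S ^ 4 - 3 * S ^ 2 * e2 + e2 ^ 2)) with hU
  have key : U ^ 2 = 49 * N ^ 4 + 294 * N ^ 2 * S ^ 4 - 7 * S ^ 8 := by
    have h1 : U ^ 2 - (49 * N ^ 4 + 294 * N ^ 2 * S ^ 4 - 7 * S ^ 8) =
        16 * 28 * S * (x ^ 7 + y ^ 7 + z ^ 7) := by
      rw [hU, hN, hS, he2, he3]; ring
    rw [h] at h1
    linarith
  have h7U : (7 : ℤ) ∣ U := ⟨4 * (2 * S * e3 + (S ^ 4 - 3 * S ^ 2 * e2 + e2 ^ 2)), by rw [hU]; ring⟩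
  obtain ⟨V, hV⟩ := h7U
  rw [hV] at key
  have key2 : 7 * V ^ 2 = 7 * N ^ 4 + 42 * N ^ 2 * S ^ 4 - S ^ 8 := by linarith
  have h7S : (7 : ℤ) ∣ S := by
    apply prime7.dvd_of_dvd_pow (n := 8)
    exact ⟨N ^ 4 + 6 * N ^ 2 * S ^ 4 - V ^ 2, by linarith⟩
  obtain ⟨T, hT⟩ := h7S
  have hT0 : T ≠ 0 := by rintro rfl; exact hS0 (by rw [hT]; ring)
  refine descent7' (n := N) (m := 7 * T ^ 2) (V := V) (by positivity) ?_
  rw [hT] at key2
  have : 7 * V ^ 2 = 7 * (N ^ 4 + 294 * N ^ 2 * (7 * T ^ 2) ^ 2 - 343 * (7 * T ^ 2) ^ 4) := by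
    rw [key2]; ring
  exact mul_left_cancel₀ (by norm_num) this

end Fermat.Agent.Iso
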