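import Mathlib
import Fermat.Agent.Iso.Galois
import Fermat.Agent.Iso.Rational
import Fermat.Agent.Iso.Seven
import Fermat.Prelude.Def_FLTPrelim_CofixedLine

set_option autoImplicit false
set_option linter.unusedSectionVars false

namespace Fermat.Agent.Iso

open WeierstrassCurve WeierstrassCurve.Affine WeierstrassCurve.Affine.Point Polynomial

local notation "ℚb" => AlgebraicClosure ℚ

/-- evaluation of `x`-coordinates along `ZMod p` -/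
lemma zmod_fun {F : Type*} [Field F] [DecidableEq F] {W : WeierstrassCurve.Affine F}
    {p : ℕ} [NeZero p] {P : W.Point} (hpP : p • P = 0) :
    ∃ g : ZMod p → F, (∀ n : ℕ, xc (n • P) = g n) ∧ ∀ z, g (-z) = g z := by
  have hmod : ∀ m n : ℕ, (m : ZMod p) = n → m • P = n • P := by
    intro m n h
    have h1 : m % p = n % p := (ZMod.natCast_eq_natCast_iff' m n p).mp h
    have h2 : ∀ m : ℕ, m • P = (m % p) • P := by
      intro m
      conv_lhs => rw [← Nat.mod_add_div m p, add_nsmul, mul_nsmul, hpP, nsmul_zero, add_zero]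
    rw [h2 m, h2 n, h1]
  refine ⟨fun z => xc (z.val • P), ?_, ?_⟩
  · intro n
    show xc (n • P) = xc ((n : ZMod p).val • P)
    rw [hmod n (n : ZMod p).val (by rw [ZMod.natCast_zmod_val])]
  · intro z
    show xc ((-z).val • P) = xc (z.val • P)
    have h1 : (-z).val • P = -(z.val • P) := by
      rw [eq_neg_iff_add_eq_zero, ← add_nsmul, hmod ((-z).val + z.val) 0 (by
        push_cast
        rw [ZMod.natCast_zmod_val, ZMod.natCast_zmod_val]; ring), zero_nsmul]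
    rw [h1, xc_neg]

/-- mod 8 obstruction for `h²+4h-1` -/
lemma no_root5 (h : ℚ) : h ^ 2 + 4 * h - 1 ≠ 0 := by
  intro h0
  have hd : (h.den : ℚ) ≠ 0 := by exact_mod_cast h.den_ne_zero
  have hnd' : (h.num : ℚ) = h * h.den := (Rat.mul_den_eq_num h).symm
  have h1 : ((h.num : ℚ)) ^ 2 + 4 * h.num * h.den - (h.den : ℚ) ^ 2 = 0 := by
    rw [hnd']
    linear_combination (h.den : ℚ) ^ 2 * h0
  have h2 : (h.num) ^ 2 + 4 * h.num * h.den - (h.den : ℤ) ^ 2 = 0 := by exact_mod_cast h1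
  have h3 : ((h.num : ℤ) : ZMod 8) ^ 2 + 4 * ((h.num : ℤ) : ZMod 8) * ((h.den : ℤ) : ZMod 8) -
      ((h.den : ℤ) : ZMod 8) ^ 2 = 0 := by
    have := congrArg (Int.cast : ℤ → ZMod 8) h2
    push_cast at this ⊢
    exact this
  have key : ∀ a b : ZMod 8, a ^ 2 + 4 * a * b - b ^ 2 = 0 → 4 * a = 0 ∧ 4 * b = 0 := by decide
  obtain ⟨h4, h5⟩ := key _ _ h3
  have h6 : (2 : ℤ) ∣ h.num := by
    have : ((4 * h.num : ℤ) : ZMod 8) = 0 := by push_cast; exact h4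
    have := (ZMod.intCast_zmod_eq_zero_iff_dvd _ 8).mp this
    omega
  have h7 : (2 : ℤ) ∣ h.den := by
    have : ((4 * (h.den : ℤ) : ℤ) : ZMod 8) = 0 := by push_cast at h5 ⊢; exact h5
    have := (ZMod.intCast_zmod_eq_zero_iff_dvd _ 8).mp this
    omega
  have hcop : IsCoprime h.num (h.den : ℤ) := by
    rw [Int.isCoprime_iff_gcd_eq_one]; exact h.reduced
  exact Int.prime_two.not_isUnit (hcop.isUnit_of_dvd' h6 h7)

/-- mod 8 obstruction for the sextic -/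
lemma no_root13 (h : ℚ) :
    h ^ 6 + 10 * h ^ 5 + 46 * h ^ 4 + 108 * h ^ 3 + 122 * h ^ 2 + 38 * h - 1 ≠ 0 := by
  intro h0
  have hd : (h.den : ℚ) ≠ 0 := by exact_mod_cast h.den_ne_zero
  have hnd' : (h.num : ℚ) = h * h.den := (Rat.mul_den_eq_num h).symm
  have h1 : ((h.num : ℚ)) ^ 6 + 10 * h.num ^ 5 * h.den + 46 * h.num ^ 4 * h.den ^ 2 +
      108 * h.num ^ 3 * h.den ^ 3 + 122 * h.num ^ 2 * h.den ^ 4 + 38 * h.num * h.den ^ 5 -
      (h.den : ℚ) ^ 6 = 0 := by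
    rw [hnd']
    linear_combination (h.den : ℚ) ^ 6 * h0
  have h2 : (h.num) ^ 6 + 10 * h.num ^ 5 * h.den + 46 * h.num ^ 4 * h.den ^ 2 +
      108 * h.num ^ 3 * h.den ^ 3 + 122 * h.num ^ 2 * h.den ^ 4 + 38 * h.num * h.den ^ 5 -
      (h.den : ℤ) ^ 6 = 0 := by exact_mod_cast h1
  have h3 : ((h.num : ℤ) : ZMod 8) ^ 6 + 10 * ((h.num : ℤ) : ZMod 8) ^ 5 * ((h.den : ℤ) : ZMod 8) +
      46 * ((h.num : ℤ) : ZMod 8) ^ 4 * ((h.den : ℤ) : ZMod 8) ^ 2 +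
      108 * ((h.num : ℤ) : ZMod 8) ^ 3 * ((h.den : ℤ) : ZMod 8) ^ 3 +
      122 * ((h.num : ℤ) : ZMod 8) ^ 2 * ((h.den : ℤ) : ZMod 8) ^ 4 +
      38 * ((h.num : ℤ) : ZMod 8) * ((h.den : ℤ) : ZMod 8) ^ 5 -
      ((h.den : ℤ) : ZMod 8) ^ 6 = 0 := by
    have := congrArg (Int.cast : ℤ → ZMod 8) h2
    push_cast at this ⊢
    exact this
  have key : ∀ a b : ZMod 8, a ^ 6 + 10 * a ^ 5 * b + 46 * a ^ 4 * b ^ 2 + 108 * a ^ 3 * b ^ 3 +
      122 * a ^ 2 * b ^ 4 + 38 * a * b ^ 5 - b ^ 6 = 0 → 4 * a = 0 ∧ 4 * b = 0 := by decide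
  obtain ⟨h4, h5⟩ := key _ _ h3
  have h6 : (2 : ℤ) ∣ h.num := by
    have : ((4 * h.num : ℤ) : ZMod 8) = 0 := by push_cast; exact h4
    have := (ZMod.intCast_zmod_eq_zero_iff_dvd _ 8).mp this
    omega
  have h7 : (2 : ℤ) ∣ h.den := by
    have : ((4 * (h.den : ℤ) : ℤ) : ZMod 8) = 0 := by push_cast at h5 ⊢; exact h5
    have := (ZMod.intCast_zmod_eq_zero_iff_dvd _ 8).mp this
    omega
  have hcop : IsCoprime h.num (h.den : ℤ) := by
    rw [Int.isCoprime_iff_gcd_eq_one]; exact h.reduced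
  exact Int.prime_two.not_isUnit (hcop.isUnit_of_dvd' h6 h7)

/-- no rational `5`-isogeny when the discriminant is a nonzero square -/
theorem no_stable5 {W' : WeierstrassCurve.Affine ℚ} {δ : ℚ} (hδ : δ ≠ 0) (hΔ : W'.Δ = δ ^ 2)
    (N : Submodule (ZMod 5) (Submodule.torsionBy ℤ (W'⁄ℚb).Point (5 : ℕ)))
    (hst : IsGaloisStable ℚ N) (h0 : N ≠ ⊥) (h1 : N ≠ ⊤) : False := by
  obtain ⟨P, hP, h5, hσ⟩ := galois_generator (by norm_num : Nat.Prime 5) (by decide)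
    (fun P hP h => preΨ5 hP h) N hst h0 h1
  obtain ⟨g, hg, hneg⟩ := zmod_fun h5
  obtain ⟨hB, hX2, e2, e3⟩ := rel5 hP h5
  obtain ⟨h, hh1, hh2⟩ := alg5 hB hX2 (four_cC (xc P)) e2 e3
  have hΔ' : eΔ (cp (W'⁄ℚb) (xc P)) (cq (W'⁄ℚb) (xc P)) (cB (W'⁄ℚb) (xc P)) (cC (W'⁄ℚb) (xc P)) =
      algebraMap ℚ ℚb W'.Δ := by
    rw [← WeierstrassCurve.map_Δ]
    exact (Δ_shift (xc P)).symm
  have hc₆' : eC6 (cp (W'⁄ℚb) (xc P)) (cq (W'⁄ℚb) (xc P)) (cB (W'⁄ℚb) (xc P)) =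
      algebraMap ℚ ℚb W'.c₆ := by
    rw [← WeierstrassCurve.map_c₆]
    exact (c₆_shift (xc P)).symm
  -- the invariant
  have hX2g : Xd P 2 = g 2 - g 1 := by
    have e1 := hg 2
    have e2 := hg 1
    rw [one_nsmul] at e2
    rw [Xd, e1, e2]; simp
  have hF : ∀ z : ZMod 5, z ≠ 0 → (g (2 * z) - g z) ^ 6 = (g 2 - g 1) ^ 6 := by
    have hstep : ∀ z : ZMod 5, (g (2 * (2 * z)) - g (2 * z)) ^ 6 = (g (2 * z) - g z) ^ 6 := by
      intro z
      have : (2 * (2 * z) : ZMod 5) = - z := by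
        have : (5 : ZMod 5) = 0 := rfl
        linear_combination z * this
      rw [this, hneg]; ring
    have hpow : ∀ n : ℕ, (g (2 * 2 ^ n) - g (2 ^ n)) ^ 6 = (g 2 - g 1) ^ 6 := by
      intro n
      induction n with
      | zero => simp
      | succ n ih => rw [pow_succ' (2 : ZMod _) n, hstep, ih]
    have hgen : ∀ z : ZMod 5, z ≠ 0 → z = 2 ^ 0 ∨ z = 2 ^ 1 ∨ z = 2 ^ 2 ∨ z = 2 ^ 3 := by decide
    intro z hz
    rcases hgen z hz with h | h | h | h <;> rw [h] <;> exact hpow _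
  obtain ⟨r, hr⟩ := rational_of_fixed (Xd P 2 ^ 6) (by
    intro σ
    obtain ⟨k, hk, hkσ⟩ := hσ σ
    have e1 := hkσ 1
    have e2 := hkσ 2
    rw [one_nsmul] at e1
    have hk0 : (k : ZMod 5) ≠ 0 := by
      rwa [Ne, ZMod.natCast_eq_zero_iff]
    rw [map_pow, Xd, map_sub, e1, e2, hg, hg]
    have := hF k hk0
    push_cast
    rw [mul_comm (k : ZMod 5) 2, mul_one, this, ← hX2g, Xd])
  have hr0 : r ≠ 0 := by
    rintro rfl
    rw [_root_.map_zero] at hr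
    exact pow_ne_zero 6 hX2 hr.symm
  have hinj := (algebraMap ℚ ℚb).injective
  -- h is rational
  obtain ⟨hq, rfl⟩ : ∃ hq : ℚ, algebraMap ℚ ℚb hq = h := by
    refine ⟨W'.Δ / r, ?_⟩
    have hr0' : algebraMap ℚ ℚb r ≠ 0 := by rw [hr]; exact pow_ne_zero 6 hX2
    rw [map_div₀, div_eq_iff hr0', ← hΔ', hh1, hr]; ring
  have q1 : W'.Δ = r * hq := by
    apply hinj
    rw [map_mul, hr, ← hh1, hΔ']
  have q2 : W'.c₆ ^ 2 = r * (hq ^ 2 + 22 * hq + 125) * (hq ^ 2 + 4 * hq - 1) ^ 2 := by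
    apply hinj
    rw [map_pow, ← hc₆', hh2, map_mul, map_mul, hr]
    simp only [map_add, map_mul, map_pow, map_sub, map_one, map_ofNat]
  have hq0 : hq ≠ 0 := by
    rintro rfl
    rw [mul_zero, hΔ] at q1
    exact pow_ne_zero 2 hδ q1
  have hS := no_root5 hq
  refine no_rat5 (y := W'.c₆ * hq / (δ * (hq ^ 2 + 4 * hq - 1))) hq0 ?_
  rw [div_pow, eq_div_iff (pow_ne_zero 2 (mul_ne_zero hδ hS)), mul_pow, mul_pow, q2, ← hΔ, q1]
  ring

/-- no rational `13`-isogeny when the discriminant is a nonzero square -/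
theorem no_stable13 {W' : WeierstrassCurve.Affine ℚ} {δ : ℚ} (hδ : δ ≠ 0) (hΔ : W'.Δ = δ ^ 2)
    (N : Submodule (ZMod 13) (Submodule.torsionBy ℤ (W'⁄ℚb).Point (13 : ℕ)))
    (hst : IsGaloisStable ℚ N) (h0 : N ≠ ⊥) (h1 : N ≠ ⊤) : False := by
  obtain ⟨P, hP, h13, hσ⟩ := galois_generator (by norm_num : Nat.Prime 13) (by decide)
    (fun P hP h => preΨ13 hP h) N hst h0 h1
  obtain ⟨g, hg, hneg⟩ := zmod_fun h13
  obtain ⟨hB, hX2, hX3, hX4, hX5, hX6, hX23, hX62, e2, e3, e4, e5, e6, e7⟩ := rel13 hP h13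
  obtain ⟨h, hh1, hh2⟩ := alg13 hB hX2 hX3 hX4 hX5 hX6 hX23 hX62 (four_cC (xc P)) e2 e3 e4 e5 e6 e7
  have hΔ' : eΔ (cp (W'⁄ℚb) (xc P)) (cq (W'⁄ℚb) (xc P)) (cB (W'⁄ℚb) (xc P)) (cC (W'⁄ℚb) (xc P)) =
      algebraMap ℚ ℚb W'.Δ := by
    rw [← WeierstrassCurve.map_Δ]
    exact (Δ_shift (xc P)).symm
  have hc₆' : eC6 (cp (W'⁄ℚb) (xc P)) (cq (W'⁄ℚb) (xc P)) (cB (W'⁄ℚb) (xc P)) =
      algebraMap ℚ ℚb W'.c₆ := by
    rw [← WeierstrassCurve.map_c₆]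
    exact (c₆_shift (xc P)).symm
  -- the invariant
  have hPi : (0 - Xd P 5) * (Xd P 2 - Xd P 3) * (Xd P 4 - Xd P 6) =
      (g 1 - g 5) * (g 2 - g 3) * (g 4 - g 6) := by
    have e1 := hg 1
    have e2 := hg 2
    have e3 := hg 3
    have e4 := hg 4
    have e5 := hg 5
    have e6 := hg 6
    rw [one_nsmul] at e1
    simp only [Xd, e1, e2, e3, e4, e5, e6]
    push_cast
    ring
  have hF : ∀ z : ZMod 13, z ≠ 0 → ((g z - g (z * 5)) * (g (z * 2) - g (z * 3)) *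
      (g (z * 4) - g (z * 6))) ^ 2 = ((g 1 - g 5) * (g 2 - g 3) * (g 4 - g 6)) ^ 2 := by
    have h13' : (13 : ZMod 13) = 0 := rfl
    have hstep : ∀ z : ZMod 13, ((g (2 * z) - g (2 * z * 5)) * (g (2 * z * 2) - g (2 * z * 3)) *
      (g (2 * z * 4) - g (2 * z * 6))) ^ 2 = ((g z - g (z * 5)) * (g (z * 2) - g (z * 3)) *
      (g (z * 4) - g (z * 6))) ^ 2 := by
      intro z
      have a1 : 2 * z = z * 2 := by ring
      have a2 : 2 * z * 5 = -(z * 3) := by linear_combination z * h13'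
      have a3 : 2 * z * 2 = z * 4 := by ring
      have a4 : 2 * z * 3 = z * 6 := by ring
      have a5 : 2 * z * 4 = -(z * 5) := by linear_combination z * h13'
      have a6 : 2 * z * 6 = -z := by linear_combination z * h13'
      rw [a2, a3, a4, a5, a6, a1, hneg, hneg, hneg]
      ring
    have hpow : ∀ n : ℕ, ((g (2 ^ n) - g (2 ^ n * 5)) * (g (2 ^ n * 2) - g (2 ^ n * 3)) *
      (g (2 ^ n * 4) - g (2 ^ n * 6))) ^ 2 = ((g 1 - g 5) * (g 2 - g 3) * (g 4 - g 6)) ^ 2 := by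
      intro n
      induction n with
      | zero => simp
      | succ n ih => rw [pow_succ' (2 : ZMod _) n, hstep, ih]
    have hgen : ∀ z : ZMod 13, z ≠ 0 → z = 2 ^ 0 ∨ z = 2 ^ 1 ∨ z = 2 ^ 2 ∨ z = 2 ^ 3 ∨ z = 2 ^ 4 ∨
      z = 2 ^ 5 ∨ z = 2 ^ 6 ∨ z = 2 ^ 7 ∨ z = 2 ^ 8 ∨ z = 2 ^ 9 ∨ z = 2 ^ 10 ∨ z = 2 ^ 11 := by
      decide
    intro z hz
    rcases hgen z hz with h | h | h | h | h | h | h | h | h | h | h | h <;> rw [h] <;> exact hpow _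
  obtain ⟨r, hr⟩ := rational_of_fixed (((0 - Xd P 5) * (Xd P 2 - Xd P 3) * (Xd P 4 - Xd P 6)) ^ 2) (by
    intro σ
    obtain ⟨k, hk, hkσ⟩ := hσ σ
    have hk0 : (k : ZMod 13) ≠ 0 := by
      rwa [Ne, ZMod.natCast_eq_zero_iff]
    have hgσ : ∀ i : ℕ, σ (g i) = g (k * i) := by
      intro i
      rw [← hg, hkσ, hg]; push_cast; rfl
    rw [hPi, map_pow, map_mul, map_mul, map_sub, map_sub, map_sub]
    have a1 := hgσ 1
    have a2 := hgσ 2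
    have a3 := hgσ 3
    have a4 := hgσ 4
    have a5 := hgσ 5
    have a6 := hgσ 6
    push_cast at a1 a2 a3 a4 a5 a6
    rw [mul_one] at a1
    rw [a1, a2, a3, a4, a5, a6]
    exact hF k hk0)
  have hPi0 : ((0 - Xd P 5) * (Xd P 2 - Xd P 3) * (Xd P 4 - Xd P 6)) ^ 2 ≠ 0 := by
    intro h0
    rw [h0, zero_mul] at hh1
    rw [hh1, hΔ] at hΔ'
    have : algebraMap ℚ ℚb (δ ^ 2) ≠ 0 := by
      rw [Ne, map_eq_zero]; exact pow_ne_zero 2 hδ
    exact this hΔ'.symm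
  have hr0 : r ≠ 0 := by
    rintro rfl
    rw [_root_.map_zero] at hr
    exact hPi0 hr.symm
  have hinj := (algebraMap ℚ ℚb).injective
  -- h is rational
  obtain ⟨hq, rfl⟩ : ∃ hq : ℚ, algebraMap ℚ ℚb hq = h := by
    refine ⟨W'.Δ / r, ?_⟩
    have hr0' : algebraMap ℚ ℚb r ≠ 0 := by rw [hr]; exact hPi0
    rw [map_div₀, div_eq_iff hr0', ← hΔ', hh1, hr]; ring
  have q1 : W'.Δ = r * hq := by
    apply hinj
    rw [map_mul, hr, ← hh1, hΔ']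
  have q2 : W'.c₆ ^ 2 = r * (hq ^ 2 + 6 * hq + 13) * (hq ^ 6 + 10 * hq ^ 5 + 46 * hq ^ 4 +
      108 * hq ^ 3 + 122 * hq ^ 2 + 38 * hq - 1) ^ 2 := by
    apply hinj
    rw [map_pow, ← hc₆', hh2, map_mul, map_mul, hr]
    simp only [map_add, map_mul, map_pow, map_sub, map_one, map_ofNat]
  have hq0 : hq ≠ 0 := by
    rintro rfl
    rw [mul_zero, hΔ] at q1
    exact pow_ne_zero 2 hδ q1
  have hS := no_root13 hq
  refine no_rat13 (y := W'.c₆ * hq / (δ * (hq ^ 6 + 10 * hq ^ 5 + 46 * hq ^ 4 +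
      108 * hq ^ 3 + 122 * hq ^ 2 + 38 * hq - 1))) hq0 ?_
  rw [div_pow, eq_div_iff (pow_ne_zero 2 (mul_ne_zero hδ hS)), mul_pow, mul_pow, q2, ← hΔ, q1]
  ring

/-- the discriminant of the Frey curve is a nonzero square -/
lemma frey_disc (P : FreyPackage) : ∃ δ : ℚ, δ ≠ 0 ∧ P.freyCurve.Δ = δ ^ 2 := by
  refine ⟨(P.a : ℚ) ^ P.p * (P.b : ℚ) ^ P.p * ((P.a : ℚ) ^ P.p + (P.b : ℚ) ^ P.p) / 16, ?_, ?_⟩
  · have h1 : (P.a : ℚ) ^ P.p + (P.b : ℚ) ^ P.p = (P.c : ℚ) ^ P.p := by exact_mod_cast P.hFLT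
    have ha : (P.a : ℚ) ≠ 0 := by exact_mod_cast P.ha0
    have hb : (P.b : ℚ) ≠ 0 := by exact_mod_cast P.hb0
    have hc : (P.c : ℚ) ≠ 0 := by exact_mod_cast P.hc0
    rw [h1]
    positivity
  · simp only [FreyPackage.freyCurve, WeierstrassCurve.Δ, WeierstrassCurve.b₂, WeierstrassCurve.b₄,
      WeierstrassCurve.b₆, WeierstrassCurve.b₈]
    ring

end Fermat.Agent.Iso
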